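import Mathlib

/-!
# S26, package LF (local factoriality), leaf LF2, part 1: generation lemma

A subalgebra `E` of a `K`-algebra `D` is everything as soon as `D = K + J` for a nilpotent ideal
`J` and `E` generates `J` modulo `J ^ 2`.  (Version of `Fermat.Agent.S53.Limit.subalgebra_eq_top`
for an arbitrary ideal `J` instead of the maximal ideal of a local ring.)
-/

set_option autoImplicit false

namespace Fermat.Agent.S26.LF.H18

variable {K : Type*} [CommRing K] {D : Type*} [CommRing D] [Algebra K D]

theorem exists_mem_sub_mem_pow_succ (J : Ideal D) (E : Subalgebra K D)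
    (hE : ∀ z ∈ J, ∃ e ∈ E, z - e ∈ J ^ 2) (i : ℕ) :
    ∀ z ∈ J ^ (i + 1), ∃ e ∈ E, z - e ∈ J ^ (i + 2) := by
  induction i with
  | zero =>
    intro z hz
    rw [zero_add, pow_one] at hz
    exact hE z hz
  | succ i ih =>
    intro z hz
    rw [pow_succ] at hz
    refine Submodule.mul_induction_on hz ?_ ?_
    · intro a ha b hb
      obtain ⟨ea, hea, ha'⟩ := ih a ha
      obtain ⟨eb, heb, hb'⟩ := hE b hb
      refine ⟨ea * eb, E.mul_mem hea heb, ?_⟩
      have hea' : ea ∈ J ^ (i + 1) := by
        have : ea = a - (a - ea) := by ring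
        rw [this]
        exact Ideal.sub_mem _ ha (Ideal.pow_le_pow_right (by omega) ha')
      have : a * b - ea * eb = ea * (b - eb) + (a - ea) * b := by ring
      rw [this]
      refine Ideal.add_mem _ ?_ ?_
      · have := Ideal.mul_mem_mul hea' hb'
        rw [← pow_add] at this
        exact Ideal.pow_le_pow_right (by omega) this
      · have := Ideal.mul_mem_mul ha' hb
        rw [← pow_succ] at this
        exact Ideal.pow_le_pow_right (by omega) this
    · rintro x y ⟨ex, hex, hx⟩ ⟨ey, hey, hy⟩
      refine ⟨ex + ey, E.add_mem hex hey, ?_⟩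
      have : x + y - (ex + ey) = (x - ex) + (y - ey) := by ring
      rw [this]
      exact Ideal.add_mem _ hx hy

theorem subalgebra_eq_top_of_nilp (J : Ideal D)
    (hres : ∀ d : D, ∃ a : K, d - algebraMap K D a ∈ J)
    (L : ℕ) (hL : J ^ L = ⊥) (E : Subalgebra K D)
    (hE : ∀ z ∈ J, ∃ e ∈ E, z - e ∈ J ^ 2) : E = ⊤ := by
  have step : ∀ i : ℕ, ∀ d : D, ∃ e ∈ E, d - e ∈ J ^ (i + 1) := by
    intro i
    induction i with
    | zero =>
      intro d
      obtain ⟨a, ha⟩ := hres d
      refine ⟨algebraMap K D a, E.algebraMap_mem a, ?_⟩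
      rw [zero_add, pow_one]
      exact ha
    | succ i ih =>
      intro d
      obtain ⟨e, he, hd⟩ := ih d
      obtain ⟨e', he', hd'⟩ := exists_mem_sub_mem_pow_succ J E hE i _ hd
      refine ⟨e + e', E.add_mem he he', ?_⟩
      have : d - (e + e') = d - e - e' := by ring
      rw [this]
      exact hd'
  rw [eq_top_iff]
  intro d _
  obtain ⟨e, he, hd⟩ := step L d
  have : d - e ∈ J ^ L := Ideal.pow_le_pow_right (by omega) hd
  rw [hL, Ideal.mem_bot, sub_eq_zero] at this
  rw [this]; exact he

/-- An idempotent surjective map is the identity. -/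
theorem eq_id_of_idem_of_surj {X : Type*} (e : X → X) (hidem : ∀ x, e (e x) = e x)
    (hsurj : Function.Surjective e) (y : X) : e y = y := by
  obtain ⟨x, rfl⟩ := hsurj y
  exact hidem x

end Fermat.Agent.S26.LF.H18
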