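import Mathlib
import Fermat.Agent.S26.LF.H18_Gen

/-!
# S26, package LF, leaf LF2, part 2: the truncations `K[T]/(T)^k → O/m^k`

`O` is a local `K`-algebra with residue field `K`, `t : Fin g → O` is a family in the maximal ideal
which is a `K`-basis of `m / m²`.  `qk t ht k : K[T]/(T)^k → O/m^k`, `T_i ↦ t_i`, is surjective, and
injective when `O` is formally smooth over `K` (retraction argument).
-/

set_option autoImplicit false

open IsLocalRing MvPolynomial

namespace Fermat.Agent.S26.LF.H18

section Poly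

variable {K : Type*} [Field K] {g : ℕ}

theorem sub_C_mem_idealOfVars (p : MvPolynomial (Fin g) K) :
    p - C (coeff 0 p) ∈ idealOfVars (Fin g) K := by
  have h := (mem_pow_idealOfVars_iff' (σ := Fin g) (R := K) 1 (p - C (coeff 0 p))).2
  rw [pow_one] at h
  apply h
  intro x hx
  have hx0 : x = 0 := by
    have : Finsupp.degree x = 0 := by omega
    exact (Finsupp.degree_eq_zero_iff x).1 this
  subst hx0
  simp

theorem exists_single_of_degree_eq_one (x : Fin g →₀ ℕ) (hx : Finsupp.degree x = 1) :
    ∃ i, x = Finsupp.single i 1 := by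
  have hne : x ≠ 0 := by
    intro h; rw [h] at hx; simp at hx
  obtain ⟨i, hi⟩ : ∃ i, x i ≠ 0 := by
    by_contra hcon
    push Not at hcon
    exact hne (Finsupp.ext hcon)
  refine ⟨i, ?_⟩
  have hle : x i ≤ 1 := hx ▸ Finsupp.le_degree i x
  have hxi : x i = 1 := by omega
  have hrest : Finsupp.degree (x - Finsupp.single i 1) = 0 := by
    have h1 : x = (x - Finsupp.single i 1) + Finsupp.single i 1 := by
      ext j
      by_cases hj : j = i
      · subst hj; simp [hxi]
      · simp [Ne.symm hj]
    have h2 := congrArg Finsupp.degree h1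
    rw [map_add, Finsupp.degree_single, hx] at h2
    omega
  have h0 := (Finsupp.degree_eq_zero_iff _).1 hrest
  ext j
  have := DFunLike.congr_fun h0 j
  by_cases hj : j = i
  · subst hj; simp [hxi]
  · simp only [Finsupp.coe_tsub, Pi.sub_apply, Finsupp.single_apply, Finsupp.coe_zero,
      Pi.zero_apply] at this ⊢
    rw [if_neg (Ne.symm hj)] at this ⊢
    omega

/-- the part of order `≥ 2` of a polynomial -/
theorem sub_lin_mem_sq (p : MvPolynomial (Fin g) K) :
    p - C (coeff 0 p) - ∑ i, C (coeff (Finsupp.single i 1) p) * X i ∈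
      idealOfVars (Fin g) K ^ 2 := by
  rw [mem_pow_idealOfVars_iff']
  intro x hx
  have hdeg : Finsupp.degree x = 0 ∨ Finsupp.degree x = 1 := by omega
  rcases hdeg with h0 | h1
  · have hx0 : x = 0 := (Finsupp.degree_eq_zero_iff x).1 h0
    subst hx0
    simp [coeff_sum, coeff_C_mul, coeff_X]
  · obtain ⟨j, rfl⟩ := exists_single_of_degree_eq_one x h1
    simp only [coeff_sub, coeff_sum, coeff_C_mul, coeff_X, coeff_C]
    have hne : (0 : Fin g →₀ ℕ) ≠ Finsupp.single j 1 := by
      intro h
      have := DFunLike.congr_fun h j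
      simp at this
    rw [if_neg hne, sub_zero]
    have : ∑ i, coeff (Finsupp.single i 1) p *
        (if Finsupp.single i 1 = Finsupp.single j 1 then (1 : K) else 0) =
        coeff (Finsupp.single j 1) p := by
      rw [Finset.sum_eq_single j]
      · simp
      · intro i _ hij
        have : Finsupp.single i 1 ≠ Finsupp.single j 1 := by
          intro h
          apply hij
          have := (Finsupp.single_eq_single_iff _ _ _ _).1 h
          rcases this with ⟨h1, _⟩ | ⟨h1, _⟩
          · exact h1
          · simp at h1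
        rw [if_neg this, mul_zero]
      · intro h; exact absurd (Finset.mem_univ j) h
    rw [this, sub_self]

end Poly

section Core

variable {K : Type*} [Field K] {O : Type*} [CommRing O] [IsLocalRing O] [Algebra K O]
variable {g : ℕ} (t : Fin g → O)

/-- `q = aeval t : K[T] → O`. -/
noncomputable def qHom : MvPolynomial (Fin g) K →ₐ[K] O := MvPolynomial.aeval t

@[simp] theorem qHom_X (i : Fin g) : qHom (K := K) t (X i) = t i := by simp [qHom]

@[simp] theorem qHom_C (c : K) : qHom (K := K) t (C c) = algebraMap K O c := by simp [qHom]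

theorem map_idealOfVars_le (ht : ∀ i, t i ∈ maximalIdeal O) :
    (idealOfVars (Fin g) K).map (qHom (K := K) t) ≤ maximalIdeal O := by
  rw [Ideal.map_span, Ideal.span_le]
  rintro _ ⟨_, ⟨i, rfl⟩, rfl⟩
  simpa using ht i

theorem pow_le_comap (ht : ∀ i, t i ∈ maximalIdeal O) (k : ℕ) :
    idealOfVars (Fin g) K ^ k ≤ (maximalIdeal O ^ k).comap (qHom (K := K) t) := by
  rw [← Ideal.map_le_iff_le_comap, Ideal.map_pow]
  exact Ideal.pow_right_mono (map_idealOfVars_le t ht) k

theorem qHom_mem_pow (ht : ∀ i, t i ∈ maximalIdeal O) (k : ℕ) {p : MvPolynomial (Fin g) K}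
    (hp : p ∈ idealOfVars (Fin g) K ^ k) : qHom (K := K) t p ∈ maximalIdeal O ^ k :=
  pow_le_comap t ht k hp

/-- `q_k : K[T]/(T)^k → O/m^k`. -/
noncomputable def qk (ht : ∀ i, t i ∈ maximalIdeal O) (k : ℕ) :
    (MvPolynomial (Fin g) K ⧸ idealOfVars (Fin g) K ^ k) →ₐ[K] (O ⧸ maximalIdeal O ^ k) :=
  Ideal.quotientMapₐ (maximalIdeal O ^ k) (qHom (K := K) t) (pow_le_comap t ht k)

@[simp] theorem qk_mk (ht : ∀ i, t i ∈ maximalIdeal O) (k : ℕ) (p : MvPolynomial (Fin g) K) :
    qk t ht k (Ideal.Quotient.mk _ p) = Ideal.Quotient.mk _ (qHom (K := K) t p) := rfl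

theorem algebraMap_mem_maximalIdeal_iff (c : K) :
    algebraMap K O c ∈ maximalIdeal O ↔ c = 0 := by
  constructor
  · intro h
    by_contra hc
    have hu : IsUnit (algebraMap K O c) := (IsUnit.mk0 c hc).map (algebraMap K O)
    exact (mem_maximalIdeal _).1 h hu
  · rintro rfl; simp

end Core

end Fermat.Agent.S26.LF.H18
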