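import Mathlib
import Fermat.Agent.S26.LF.H18_Quot

/-!
# S26, package LF, leaf LF2, part 3: `q_k : K[T]/(T)^k → O/m^k` is bijective
-/

set_option autoImplicit false

open IsLocalRing MvPolynomial

namespace Fermat.Agent.S26.LF.H18

section Core

variable {K : Type*} [Field K] {O : Type*} [CommRing O] [IsLocalRing O] [Algebra K O]
variable {g : ℕ} (t : Fin g → O)

/-- the hypotheses on the family `t`: it lies in `m`, spans `m / m²` and is independent there. -/
structure IsCotBasis (t : Fin g → O) : Prop where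
  mem : ∀ i, t i ∈ maximalIdeal O
  span : ∀ x ∈ maximalIdeal O, ∃ c : Fin g → K, x - ∑ i, c i • t i ∈ maximalIdeal O ^ 2
  indep : ∀ c : Fin g → K, ∑ i, c i • t i ∈ maximalIdeal O ^ 2 → ∀ i, c i = 0

variable {t}

theorem qHom_lin (c : Fin g → K) :
    qHom (K := K) t (∑ i, C (c i) * X i) = ∑ i, c i • t i := by
  simp [map_sum, Algebra.smul_def]

theorem sum_smul_mem (ht : IsCotBasis (K := K) t) (c : Fin g → K) :
    ∑ i, c i • t i ∈ maximalIdeal O := by
  refine Ideal.sum_mem _ fun i _ => ?_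
  rw [Algebra.smul_def]
  exact Ideal.mul_mem_left _ _ (ht.mem i)

/-- the maximal ideal of `O / m^k` -/
noncomputable abbrev JO (O : Type*) [CommRing O] [IsLocalRing O] (k : ℕ) : Ideal (O ⧸ maximalIdeal O ^ k) :=
  (maximalIdeal O).map (Ideal.Quotient.mk (maximalIdeal O ^ k))

/-- the maximal ideal of `K[T] / (T)^k` -/
noncomputable abbrev JP (K : Type*) [Field K] (g k : ℕ) :
    Ideal (MvPolynomial (Fin g) K ⧸ idealOfVars (Fin g) K ^ k) :=
  (idealOfVars (Fin g) K).map (Ideal.Quotient.mk (idealOfVars (Fin g) K ^ k))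

theorem JO_pow (k : ℕ) : JO O k ^ k = ⊥ := by
  rw [JO, ← Ideal.map_pow]
  exact Ideal.map_quotient_self _

theorem JP_pow (k : ℕ) : JP K g k ^ k = ⊥ := by
  rw [JP, ← Ideal.map_pow]
  exact Ideal.map_quotient_self _

theorem JP_res (k : ℕ) (d : MvPolynomial (Fin g) K ⧸ idealOfVars (Fin g) K ^ k) :
    ∃ a : K, d - algebraMap K _ a ∈ JP K g k := by
  obtain ⟨p, rfl⟩ := Ideal.Quotient.mk_surjective d
  refine ⟨coeff 0 p, ?_⟩
  have : (Ideal.Quotient.mk (idealOfVars (Fin g) K ^ k)) p - algebraMap K _ (coeff 0 p) =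
      Ideal.Quotient.mk _ (p - C (coeff 0 p)) := by
    rw [map_sub]; rfl
  rw [this]
  exact Ideal.mem_map_of_mem _ (sub_C_mem_idealOfVars p)

theorem JO_res (hres : ∀ x : O, ∃ a : K, x - algebraMap K O a ∈ maximalIdeal O) (k : ℕ)
    (d : O ⧸ maximalIdeal O ^ k) : ∃ a : K, d - algebraMap K _ a ∈ JO O k := by
  obtain ⟨x, rfl⟩ := Ideal.Quotient.mk_surjective d
  obtain ⟨a, ha⟩ := hres x
  refine ⟨a, ?_⟩
  have : (Ideal.Quotient.mk (maximalIdeal O ^ k)) x - algebraMap K _ a =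
      Ideal.Quotient.mk _ (x - algebraMap K O a) := by
    rw [map_sub]; rfl
  rw [this]
  exact Ideal.mem_map_of_mem _ ha

theorem qk_surjective (ht : IsCotBasis (K := K) t)
    (hres : ∀ x : O, ∃ a : K, x - algebraMap K O a ∈ maximalIdeal O) (k : ℕ) :
    Function.Surjective (qk (K := K) t ht.mem k) := by
  have htop : (qk (K := K) t ht.mem k).range = ⊤ := by
    refine subalgebra_eq_top_of_nilp (JO O k) (JO_res hres k) k (JO_pow k) _ ?_
    intro z hz
    obtain ⟨x, hx, rfl⟩ := (Ideal.mem_map_iff_of_surjective _ Ideal.Quotient.mk_surjective).1 hz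
    obtain ⟨c, hc⟩ := ht.span x hx
    refine ⟨qk (K := K) t ht.mem k (Ideal.Quotient.mk _ (∑ i, C (c i) * X i)), ⟨_, rfl⟩, ?_⟩
    rw [qk_mk, qHom_lin, ← map_sub, JO, ← Ideal.map_pow]
    exact Ideal.mem_map_of_mem _ hc
  intro y
  have : y ∈ (qk (K := K) t ht.mem k).range := by rw [htop]; trivial
  exact this

/-- a polynomial mapping into `m²` has order `≥ 2`. -/
theorem mem_sq_of_qHom_mem (ht : IsCotBasis (K := K) t) (p : MvPolynomial (Fin g) K)
    (hp : qHom (K := K) t p ∈ maximalIdeal O ^ 2) : p ∈ idealOfVars (Fin g) K ^ 2 := by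
  have hr := sub_lin_mem_sq p
  set r := p - C (coeff 0 p) - ∑ i, C (coeff (Finsupp.single i 1) p) * X i with hrdef
  have hqr : qHom (K := K) t r ∈ maximalIdeal O ^ 2 := qHom_mem_pow t ht.mem 2 hr
  have hp' : p = C (coeff 0 p) + ∑ i, C (coeff (Finsupp.single i 1) p) * X i + r := by
    rw [hrdef]; ring
  have h1 : algebraMap K O (coeff 0 p) + ∑ i, coeff (Finsupp.single i 1) p • t i ∈
      maximalIdeal O ^ 2 := by
    have : algebraMap K O (coeff 0 p) + ∑ i, coeff (Finsupp.single i 1) p • t i =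
        qHom (K := K) t p - qHom (K := K) t r := by
      conv_rhs => rw [hp']
      rw [map_add, map_add, qHom_C, qHom_lin]
      ring
    rw [this]
    exact Ideal.sub_mem _ hp hqr
  have hle : maximalIdeal O ^ 2 ≤ maximalIdeal O := Ideal.pow_le_self (by norm_num)
  have h2 : algebraMap K O (coeff 0 p) ∈ maximalIdeal O := by
    have := Ideal.sub_mem _ (hle h1) (sum_smul_mem ht fun i => coeff (Finsupp.single i 1) p)
    simpa using this
  have hc0 : coeff 0 p = 0 := (algebraMap_mem_maximalIdeal_iff _).1 h2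
  rw [hc0, map_zero, zero_add] at h1
  have hci := ht.indep _ h1
  rw [hp', hc0]
  simp only [hci, map_zero, zero_mul, Finset.sum_const_zero, zero_add]
  exact hr

/-- a polynomial mapping into `m` has order `≥ 1`. -/
theorem mem_of_qHom_mem (ht : ∀ i, t i ∈ maximalIdeal O) (p : MvPolynomial (Fin g) K)
    (hp : qHom (K := K) t p ∈ maximalIdeal O) : p ∈ idealOfVars (Fin g) K := by
  have hr := sub_C_mem_idealOfVars p
  have hqr : qHom (K := K) t (p - C (coeff 0 p)) ∈ maximalIdeal O := by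
    have := qHom_mem_pow t ht 1 (by rwa [pow_one])
    rwa [pow_one] at this
  have h2 : algebraMap K O (coeff 0 p) ∈ maximalIdeal O := by
    have := Ideal.sub_mem _ hp hqr
    rw [map_sub, qHom_C] at this
    simpa using this
  have hc0 : coeff 0 p = 0 := (algebraMap_mem_maximalIdeal_iff _).1 h2
  rw [hc0] at hr
  simpa using hr

theorem ker_qk_le (ht : ∀ i, t i ∈ maximalIdeal O) (k : ℕ) (hk : 1 ≤ k) :
    RingHom.ker ((qk (K := K) t ht k) :
      (MvPolynomial (Fin g) K ⧸ idealOfVars (Fin g) K ^ k) →+* (O ⧸ maximalIdeal O ^ k)) ≤ JP K g k := by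
  intro u hu
  obtain ⟨p, rfl⟩ := Ideal.Quotient.mk_surjective u
  rw [RingHom.mem_ker] at hu
  have hu' : qHom (K := K) t p ∈ maximalIdeal O ^ k := by
    have : qk (K := K) t ht k (Ideal.Quotient.mk _ p) = 0 := hu
    rw [qk_mk] at this
    exact Ideal.Quotient.eq_zero_iff_mem.1 this
  have hle : maximalIdeal O ^ k ≤ maximalIdeal O := Ideal.pow_le_self (by omega)
  exact Ideal.mem_map_of_mem _ (mem_of_qHom_mem ht p (hle hu'))

theorem ker_qk_le_sq (ht : IsCotBasis (K := K) t) (k : ℕ) (hk : 2 ≤ k) :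
    RingHom.ker ((qk (K := K) t ht.mem k) :
      (MvPolynomial (Fin g) K ⧸ idealOfVars (Fin g) K ^ k) →+* (O ⧸ maximalIdeal O ^ k)) ≤ JP K g k ^ 2 := by
  intro u hu
  obtain ⟨p, rfl⟩ := Ideal.Quotient.mk_surjective u
  rw [RingHom.mem_ker] at hu
  have hu' : qHom (K := K) t p ∈ maximalIdeal O ^ k := by
    have : qk (K := K) t ht.mem k (Ideal.Quotient.mk _ p) = 0 := hu
    rw [qk_mk] at this
    exact Ideal.Quotient.eq_zero_iff_mem.1 this
  have hle : maximalIdeal O ^ k ≤ maximalIdeal O ^ 2 := Ideal.pow_le_pow_right hk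
  rw [JP, ← Ideal.map_pow]
  exact Ideal.mem_map_of_mem _ (mem_sq_of_qHom_mem ht p (hle hu'))

theorem ker_qk_nilp (ht : ∀ i, t i ∈ maximalIdeal O) (k : ℕ) (hk : 1 ≤ k) :
    IsNilpotent (RingHom.ker ((qk (K := K) t ht k) :
      (MvPolynomial (Fin g) K ⧸ idealOfVars (Fin g) K ^ k) →+* (O ⧸ maximalIdeal O ^ k))) := by
  refine ⟨k, ?_⟩
  have := Ideal.pow_right_mono (ker_qk_le (K := K) ht k hk) k
  rw [JP_pow] at this
  exact le_bot_iff.1 this

end Core

end Fermat.Agent.S26.LF.H18
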