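import Mathlib

/-!
# S26, package LF, leaf LF2-ALG (helper47)

Pure algebra core of LF2: if `S` is a standard smooth algebra of relative dimension `g` over a
field `K` and `𝔫` is a maximal ideal of `S` with residue field `K`, then the local ring `S_𝔫` has a
flat local homomorphism to `K⟦t₁,…,t_g⟧`.

Route: `P = K[X₁,…,X_g] → S` étale (Mathlib), translated so that the `X_i` go into `𝔫`;
`ψ : S →ₐ[P] K⟦t⟧` by formal smoothness and completeness; `ψ` is flat because `K⟦t⟧` is flat
over `P` and the retraction `K⟦t⟧ ⊗[P] S → K⟦t⟧` is étale, hence flat.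
-/

set_option autoImplicit false
set_option linter.style.haveILetI false

universe u

open TensorProduct

namespace Fermat.Agent.S26.LF.H47

/-- `A → B` étale, `C` a flat `A`-algebra: every `A`-algebra map `B → C` is flat. -/
theorem flat_of_etale_of_flat {A B C : Type u} [CommRing A] [CommRing B] [CommRing C]
    [Algebra A B] [Algebra A C] [Algebra.Etale A B] [Module.Flat A C] (ψ : B →ₐ[A] C) :
    ψ.toRingHom.Flat := by
  classical
  let σ : C ⊗[A] B →ₐ[C] C :=
    Algebra.TensorProduct.lift (AlgHom.id C C) ψ (fun _ _ => Commute.all _ _)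
  have hσ : σ.toRingHom.Flat := by
    algebraize [σ.toRingHom]
    have : IsScalarTower C (C ⊗[A] B) C := .of_algebraMap_eq' σ.comp_algebraMap.symm
    have : Algebra.Etale (C ⊗[A] B) C := .of_restrictScalars C _ _
    exact RingHom.flat_algebraMap_iff.mpr inferInstance
  have hι : (Algebra.TensorProduct.includeRight : B →ₐ[A] C ⊗[A] B).toRingHom.Flat := by
    have h1 : (algebraMap B (B ⊗[A] C)).Flat := RingHom.flat_algebraMap_iff.mpr inferInstance
    have h2 : ((Algebra.TensorProduct.comm A B C : B ⊗[A] C ≃ₐ[A] C ⊗[A] B) :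
        B ⊗[A] C →+* C ⊗[A] B).Flat :=
      .of_bijective (Algebra.TensorProduct.comm A B C).bijective
    have : (Algebra.TensorProduct.includeRight : B →ₐ[A] C ⊗[A] B).toRingHom =
        ((Algebra.TensorProduct.comm A B C : B ⊗[A] C ≃ₐ[A] C ⊗[A] B) :
          B ⊗[A] C →+* C ⊗[A] B).comp (algebraMap B (B ⊗[A] C)) := by
      ext b; simp
    rw [this]; exact h1.comp h2
  have : ψ.toRingHom =
      σ.toRingHom.comp (Algebra.TensorProduct.includeRight : B →ₐ[A] C ⊗[A] B).toRingHom := by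
    ext b; simp [σ]
  rw [this]; exact hι.comp hσ

/-- the translation automorphism `X_i ↦ X_i - a_i` of a polynomial ring -/
noncomputable def translAlgHom (K : Type u) [CommRing K] (g : ℕ) (a : Fin g → K) :
    MvPolynomial (Fin g) K →ₐ[K] MvPolynomial (Fin g) K :=
  MvPolynomial.aeval (fun i => MvPolynomial.X i - MvPolynomial.C (a i))

theorem translAlgHom_comp (K : Type u) [CommRing K] (g : ℕ) (a : Fin g → K) :
    (translAlgHom K g a).comp (translAlgHom K g (-a)) = AlgHom.id K _ := by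
  apply MvPolynomial.algHom_ext
  intro i
  simp [translAlgHom]

theorem translAlgHom_bijective (K : Type u) [CommRing K] (g : ℕ) (a : Fin g → K) :
    Function.Bijective (translAlgHom K g a) := by
  have h1 := translAlgHom_comp K g a
  have h2 := translAlgHom_comp K g (-a)
  rw [neg_neg] at h2
  refine ⟨?_, ?_⟩
  · intro x y hxy
    have := congrArg (translAlgHom K g (-a)) hxy
    simpa [← AlgHom.comp_apply, h2] using this
  · intro y
    exact ⟨translAlgHom K g (-a) y, by simp [← AlgHom.comp_apply, h1]⟩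

/-- `MvPowerSeries (Fin g) K` is flat over `MvPolynomial (Fin g) K` (`K` noetherian). -/
theorem flat_mvPowerSeries (K : Type u) [CommRing K] [IsNoetherianRing K] (g : ℕ) :
    Module.Flat (MvPolynomial (Fin g) K) (MvPowerSeries (Fin g) K) :=
  Module.Flat.of_linearEquiv (MvPowerSeries.toAdicCompletionAlgEquiv (Fin g) K).toLinearEquiv

/-- the constant coefficient kills the ideal of the variables -/
theorem constantCoeff_eq_zero_of_mem (K : Type u) [CommRing K] (g : ℕ)
    {x : MvPowerSeries (Fin g) K}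
    (hx : x ∈ (Ideal.span (Set.range MvPowerSeries.X) : Ideal (MvPowerSeries (Fin g) K))) :
    MvPowerSeries.constantCoeff x = 0 := by
  have : (Ideal.span (Set.range MvPowerSeries.X) : Ideal (MvPowerSeries (Fin g) K)) ≤
      RingHom.ker (MvPowerSeries.constantCoeff (σ := Fin g) (R := K)) := by
    rw [Ideal.span_le]
    rintro _ ⟨i, rfl⟩
    simp
  exact this hx

/-- core with a normalised étale chart: `e : K[X] → S` étale with `e X_i ∈ 𝔫`. -/
theorem lf2_alg_norm (K : Type u) [Field K] (g : ℕ) (S : Type u) [CommRing S]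
    (e : MvPolynomial (Fin g) K →+* S) (he : e.Etale)
    (𝔫 : Ideal S) [𝔫.IsMaximal]
    (hres : Function.Surjective ((Ideal.Quotient.mk 𝔫).comp (e.comp MvPolynomial.C)))
    (hX : ∀ i, e (MvPolynomial.X i) ∈ 𝔫)
    (O : Type u) [CommRing O] [Algebra S O] [IsLocalization.AtPrime O 𝔫] :
    ∃ φ : O →+* MvPowerSeries (Fin g) K, φ.Flat ∧ IsLocalHom φ := by
  classical
  algebraize [e]
  set P := MvPolynomial (Fin g) K with hP
  set Ĉ := MvPowerSeries (Fin g) K with hC
  set I : Ideal Ĉ := Ideal.span (Set.range MvPowerSeries.X) with hI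
  haveI : IsAdicComplete I Ĉ := inferInstance
  haveI : Module.Flat P Ĉ := flat_mvPowerSeries K g
  -- the residue isomorphism
  let r : K →+* S ⧸ 𝔫 := (Ideal.Quotient.mk 𝔫).comp (e.comp MvPolynomial.C)
  have hr : Function.Bijective r := ⟨r.injective, hres⟩
  let κ : S ⧸ 𝔫 ≃+* K := (RingEquiv.ofBijective r hr).symm
  have hκ : ∀ k : K, κ (Ideal.Quotient.mk 𝔫 (e (MvPolynomial.C k))) = k := fun k =>
    (RingEquiv.ofBijective r hr).symm_apply_apply k
  -- the map to `Ĉ ⧸ I`
  let ψ₁r : S →+* Ĉ ⧸ I :=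
    (Ideal.Quotient.mk I).comp ((MvPowerSeries.C (σ := Fin g) (R := K)).comp
      ((κ : S ⧸ 𝔫 →+* K).comp (Ideal.Quotient.mk 𝔫)))
  have hcomm : ψ₁r.comp e = algebraMap P (Ĉ ⧸ I) := by
    apply MvPolynomial.ringHom_ext
    · intro k
      simp only [ψ₁r, RingHom.comp_apply, RingHom.coe_coe, hκ]
      rw [IsScalarTower.algebraMap_apply P Ĉ (Ĉ ⧸ I), MvPowerSeries.algebraMap_apply']
      simp
    · intro i
      simp only [ψ₁r, RingHom.comp_apply, RingHom.coe_coe]
      rw [IsScalarTower.algebraMap_apply P Ĉ (Ĉ ⧸ I), MvPowerSeries.algebraMap_apply']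
      have h0 : Ideal.Quotient.mk 𝔫 (e (MvPolynomial.X i)) = 0 :=
        Ideal.Quotient.eq_zero_iff_mem.mpr (hX i)
      rw [h0, map_zero, map_zero, map_zero]
      symm
      rw [Ideal.Quotient.algebraMap_eq, Ideal.Quotient.eq_zero_iff_mem]
      apply Ideal.subset_span
      exact ⟨i, by simp⟩
  -- the `P`-algebra map `S → Ĉ ⧸ I`
  let ψ₁ : S →ₐ[P] Ĉ ⧸ I := AlgHom.mk ψ₁r (fun p => RingHom.congr_fun hcomm p)
  obtain ⟨ψ, hψ⟩ := Algebra.FormallySmooth.exists_mkₐ_comp_eq_of_isAdicComplete ψ₁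
  have hψflat : ψ.toRingHom.Flat := flat_of_etale_of_flat ψ
  -- constant coefficient of `ψ s`
  have hcc : ∀ s : S, MvPowerSeries.constantCoeff (ψ s) = κ (Ideal.Quotient.mk 𝔫 s) := by
    intro s
    have h1 : Ideal.Quotient.mk I (ψ s) = ψ₁r s := congrArg (fun f => f s) hψ
    have h2 : ψ s - MvPowerSeries.C (κ (Ideal.Quotient.mk 𝔫 s)) ∈ I := by
      rw [← Ideal.Quotient.eq]
      exact h1
    have h3 := constantCoeff_eq_zero_of_mem K g h2
    rw [map_sub, sub_eq_zero] at h3
    simpa using h3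
  have hunit : ∀ s : S, IsUnit (ψ s) ↔ s ∉ 𝔫 := by
    intro s
    rw [MvPowerSeries.isUnit_iff_constantCoeff, hcc, isUnit_iff_ne_zero, Ne,
      map_eq_zero_iff κ κ.injective, Ideal.Quotient.eq_zero_iff_mem]
  -- localise
  have hM : ∀ y : 𝔫.primeCompl, IsUnit (ψ.toRingHom y) := fun y => (hunit y).mpr y.2
  let φ : O →+* Ĉ := IsLocalization.lift (M := 𝔫.primeCompl) (g := ψ.toRingHom) hM
  have hφ : ∀ s : S, φ (algebraMap S O s) = ψ s := fun s =>
    IsLocalization.lift_eq (M := 𝔫.primeCompl) hM s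
  refine ⟨φ, ?_, ⟨?_⟩⟩
  · -- flatness
    letI : Algebra S Ĉ := ψ.toRingHom.toAlgebra
    letI : Algebra O Ĉ := φ.toAlgebra
    haveI : IsScalarTower S O Ĉ := .of_algebraMap_eq (fun s => (hφ s).symm)
    haveI : Module.Flat S Ĉ := hψflat
    exact (Module.flat_iff_of_isLocalization O 𝔫.primeCompl Ĉ).mpr inferInstance
  · -- local
    intro a ha
    obtain ⟨⟨s, u⟩, hsu⟩ := IsLocalization.surj 𝔫.primeCompl a
    simp only at hsu
    have h1 : φ a * ψ u = ψ s := by
      rw [← hφ, ← hφ, ← map_mul, hsu]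
    have h2 : IsUnit (ψ s) := by
      rw [← h1]
      exact ha.mul ((hunit u).mpr u.2)
    have h3 : s ∉ 𝔫 := (hunit s).mp h2
    have h4 : IsUnit (algebraMap S O s) :=
      IsLocalization.map_units O (⟨s, h3⟩ : 𝔫.primeCompl)
    have h5 : IsUnit (algebraMap S O u) := IsLocalization.map_units O u
    have h6 : IsUnit (a * algebraMap S O u) := hsu ▸ h4
    exact isUnit_of_mul_isUnit_left h6

/-- **LF2-ALG**: a standard smooth algebra of relative dimension `g` over a field `K`, localised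
at a maximal ideal with residue field `K`, has a flat local homomorphism to `K⟦t₁,…,t_g⟧`. -/
theorem lf2_alg (K : Type u) [Field K] (g : ℕ) (S : Type u) [CommRing S]
    (f : K →+* S) (hf : f.IsStandardSmoothOfRelativeDimension g)
    (𝔫 : Ideal S) [𝔫.IsMaximal]
    (hres : Function.Surjective ((Ideal.Quotient.mk 𝔫).comp f))
    (O : Type u) [CommRing O] [Algebra S O] [IsLocalization.AtPrime O 𝔫] :
    ∃ φ : O →+* MvPowerSeries (Fin g) K, φ.Flat ∧ IsLocalHom φ := by
  classical
  obtain ⟨e₀, he₀f, he₀⟩ := hf.exists_etale_mvPolynomial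
  have hex : ∀ i, ∃ a : K, e₀ (MvPolynomial.X i) - f a ∈ 𝔫 := fun i => by
    obtain ⟨a, ha⟩ := hres (Ideal.Quotient.mk 𝔫 (e₀ (MvPolynomial.X i)))
    refine ⟨a, ?_⟩
    rw [← Ideal.Quotient.eq]
    exact ha.symm
  choose a ha using hex
  let θ : MvPolynomial (Fin g) K →+* MvPolynomial (Fin g) K := (translAlgHom K g a).toRingHom
  have hθ : θ.Etale := RingHom.Etale.of_bijective (translAlgHom_bijective K g a)
  have he : (e₀.comp θ).Etale := RingHom.Etale.stableUnderComposition _ _ hθ he₀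
  have hC : (e₀.comp θ).comp MvPolynomial.C = f := by
    rw [← he₀f]
    ext k
    simp [θ, translAlgHom]
  refine lf2_alg_norm K g S (e₀.comp θ) he 𝔫 (by rw [hC]; exact hres) ?_ O
  intro i
  have h1 : (e₀.comp θ) (MvPolynomial.X i) = e₀ (MvPolynomial.X i) - f (a i) := by
    rw [← he₀f]
    simp [θ, translAlgHom]
  rw [h1]
  exact ha i

end Fermat.Agent.S26.LF.H47
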