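import Mathlib
import Fermat.Prelude.Def_JacJ1Iface
import Fermat.Prelude.Def_GoodReductionJacobian_RelativeGroupLawKernel

/-!
# S26, package LF (local factoriality): interface

Owner: helper9.  The local rings of a smooth `K`-scheme are unique factorisation domains, so every
prime divisor has a local equation near every point (Cartier language for the crux (C)).

* `Stmt_LF1` : `K⟦t₁,…,t_n⟧` is a UFD (`K` an infinite field)            [helper9, pure algebra];
* `Stmt_LF3` : a noetherian domain with a faithfully flat extension which is a local UFD is a UFD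
               [helper9, pure algebra];
* `Stmt_LF2` : at a closed point `x` of a smooth `K`-scheme of relative dimension `g` there is a
               flat local homomorphism `𝒪_{A,x} → K⟦t₁,…,t_g⟧` (the completion)   [helper47];
* `Stmt_LFc` : the stalk at a closed point is a UFD  (`= LF1 + LF2 + LF3`, proved here);
* `Stmt_LF`  : the stalk at every point is a UFD  (localisation of the stalk at a closed point).
-/

set_option autoImplicit false
set_option linter.style.haveILetI false

open CategoryTheory CategoryTheory.Limits AlgebraicGeometry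

universe u

namespace Fermat.Agent.S26.LF

/-- **LF1**: power series rings in finitely many variables over an infinite field are UFDs. -/
def Stmt_LF1 : Prop :=
  ∀ (K : Type u) [Field K] [Infinite K] (n : ℕ),
    UniqueFactorizationMonoid (MvPowerSeries (Fin n) K)

/-- **LF3**: descent of unique factorisation along a faithfully flat extension `O → S` of a
noetherian domain `O`, `S` a local UFD. -/
def Stmt_LF3 : Prop :=
  ∀ (O S : Type u) [CommRing O] [IsDomain O] [IsNoetherianRing O]
    [CommRing S] [IsDomain S] [IsLocalRing S] [UniqueFactorizationMonoid S] [Algebra O S]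
    [Module.FaithfullyFlat O S], UniqueFactorizationMonoid O

/-- **LF2**: at a closed point of a smooth `K`-scheme of relative dimension `g` the local ring has a
flat local homomorphism to `K⟦t₁,…,t_g⟧`. -/
def Stmt_LF2 : Prop :=
  ∀ (K : Type u) [Field K] [IsAlgClosed K] {A : Scheme.{u}} (f : A ⟶ Spec (CommRingCat.of K))
    (g : ℕ) [SmoothOfRelativeDimension g f] [IsIntegral A] [IsLocallyNoetherian A]
    (x : A), IsClosed ({x} : Set A) →
    ∃ φ : A.presheaf.stalk x →+* MvPowerSeries (Fin g) K, φ.Flat ∧ IsLocalHom φ

/-- **LFc**: the stalk of a smooth `K`-scheme at a closed point is a UFD. -/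
def Stmt_LFc : Prop :=
  ∀ (K : Type u) [Field K] [IsAlgClosed K] {A : Scheme.{u}} (f : A ⟶ Spec (CommRingCat.of K))
    (g : ℕ) [SmoothOfRelativeDimension g f] [IsIntegral A] [IsLocallyNoetherian A]
    (x : A), IsClosed ({x} : Set A) → UniqueFactorizationMonoid (A.presheaf.stalk x)

/-- **LF**: the stalk of a smooth `K`-scheme at any point is a UFD. -/
def Stmt_LF : Prop :=
  ∀ (K : Type u) [Field K] [IsAlgClosed K] {A : Scheme.{u}} (f : A ⟶ Spec (CommRingCat.of K))
    (g : ℕ) [SmoothOfRelativeDimension g f] [IsIntegral A] [IsLocallyNoetherian A]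
    (x : A), UniqueFactorizationMonoid (A.presheaf.stalk x)

/-- **LFloc**: `LFc → LF` (every point specialises to a closed point; the stalk is a
localisation of the stalk there). -/
def Stmt_LFloc : Prop := Stmt_LFc.{u} → Stmt_LF.{u}

/-- the assembly at closed points -/
theorem stmt_LFc_of (h1 : Stmt_LF1.{u}) (h2 : Stmt_LF2.{u}) (h3 : Stmt_LF3.{u}) :
    Stmt_LFc.{u} := by
  intro K _ _ A f g _ _ _ x hx
  obtain ⟨φ, hflat, hloc⟩ := h2 K f g x hx
  haveI : Infinite K := IsAlgClosed.instInfinite
  haveI : IsDomain (MvPowerSeries (Fin g) K) := NoZeroDivisors.to_isDomain _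
  haveI : UniqueFactorizationMonoid (MvPowerSeries (Fin g) K) := h1 K g
  haveI : IsNoetherianRing (A.presheaf.stalk x) := inferInstance
  letI : Algebra (A.presheaf.stalk x) (MvPowerSeries (Fin g) K) := φ.toAlgebra
  haveI : Module.Flat (A.presheaf.stalk x) (MvPowerSeries (Fin g) K) := hflat
  haveI : IsLocalHom (algebraMap (A.presheaf.stalk x) (MvPowerSeries (Fin g) K)) := hloc
  haveI : Module.FaithfullyFlat (A.presheaf.stalk x) (MvPowerSeries (Fin g) K) :=
    Module.FaithfullyFlat.of_flat_of_isLocalHom
  exact h3 (A.presheaf.stalk x) (MvPowerSeries (Fin g) K)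

end Fermat.Agent.S26.LF
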