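import Mathlib
import Fermat.Agent.S26.LF.Defs

/-!
# S26, package LF, leaf LF2, scheme side (helper18)

`stmt_LF2_of : Stmt_LF2Alg → Stmt_LF2`: the stalk of a smooth `K`-scheme of relative dimension `g`
at a closed point is the localisation at a maximal ideal `n` (with residue field `K`) of a
standard smooth `K`-algebra of relative dimension `g`; `Stmt_LF2Alg` is the algebraic statement
(helper47's `lf2_alg`).
-/

set_option autoImplicit false
set_option linter.style.haveILetI false

open CategoryTheory CategoryTheory.Limits AlgebraicGeometry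

universe u

namespace Fermat.Agent.S26.LF.H18

/-- the algebraic interface of LF2 (helper47's `lf2_alg`). -/
def Stmt_LF2Alg : Prop :=
  ∀ (K : Type u) [Field K] (g : ℕ) (S : Type u) [CommRing S]
    (f : K →+* S) (_hf : f.IsStandardSmoothOfRelativeDimension g)
    (n : Ideal S) [n.IsMaximal] (_hres : Function.Surjective ((Ideal.Quotient.mk n).comp f))
    (O : Type u) [CommRing O] [Algebra S O] [IsLocalization.AtPrime O n],
    ∃ φ : O →+* MvPowerSeries (Fin g) K, φ.Flat ∧ IsLocalHom φ

/-- Zariski's lemma over an algebraically closed field: a maximal ideal of a `K`-algebra of finite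
type has residue field `K`. -/
theorem residue_surjective (K : Type u) [Field K] [IsAlgClosed K] (S : Type u) [CommRing S]
    (f : K →+* S) (hf : f.FiniteType) (n : Ideal S) [n.IsMaximal] :
    Function.Surjective ((Ideal.Quotient.mk n).comp f) := by
  letI : Field (S ⧸ n) := Ideal.Quotient.field n
  letI : Algebra K S := f.toAlgebra
  haveI : Algebra.FiniteType K S := hf
  haveI : Algebra.FiniteType K (S ⧸ n) :=
    Algebra.FiniteType.of_surjective (Ideal.Quotient.mkₐ K n) (Ideal.Quotient.mkₐ_surjective K n)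
  haveI : Module.Finite K (S ⧸ n) := finite_of_finite_type_of_isJacobsonRing K (S ⧸ n)
  haveI : Algebra.IsIntegral K (S ⧸ n) := Algebra.IsIntegral.of_finite K (S ⧸ n)
  have hb : Function.Bijective (algebraMap K (S ⧸ n)) :=
    IsAlgClosed.algebraMap_bijective_of_isIntegral
  intro y
  obtain ⟨a, ha⟩ := hb.2 y
  exact ⟨a, ha⟩


/-- every open of `Spec K` containing a point is everything. -/
theorem opens_spec_field_eq_top (K : Type u) [Field K] (U : (Spec (CommRingCat.of K)).Opens)
    (y : Spec (CommRingCat.of K)) (hy : y ∈ U) : U = ⊤ := by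
  ext z
  simp only [TopologicalSpace.Opens.coe_top, Set.mem_univ, iff_true, SetLike.mem_coe]
  have : z = y := Subsingleton.elim (α := PrimeSpectrum K) z y
  rw [this]; exact hy

/-- **LF2, scheme side**: the algebraic statement gives `Stmt_LF2`. -/
theorem stmt_LF2_of (h : Stmt_LF2Alg.{u}) : Stmt_LF2.{u} := by
  intro K _ _ A f g _ _ _ x hx
  obtain ⟨U, hU, V, hV, hxV, e, hf⟩ :=
    SmoothOfRelativeDimension.exists_isStandardSmoothOfRelativeDimension (n := g) (f := f) x
  have hUtop : U = ⊤ := opens_spec_field_eq_top K U (f.base x) (e hxV)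
  subst hUtop
  let ιe : K ≃+* Γ(Spec (CommRingCat.of K), ⊤) :=
    (Scheme.ΓSpecIso (CommRingCat.of K)).symm.commRingCatIsoToRingEquiv
  have hι : (ιe : K →+* Γ(Spec (CommRingCat.of K), ⊤)).IsStandardSmoothOfRelativeDimension 0 :=
    RingHom.IsStandardSmoothOfRelativeDimension.equiv ιe
  let φ₀ : K →+* Γ(A, V) := (f.appLE ⊤ V e).hom.comp (ιe : K →+* Γ(Spec (CommRingCat.of K), ⊤))
  have hφ₀ : φ₀.IsStandardSmoothOfRelativeDimension g := by
    have := hf.comp hι
    rwa [add_zero] at this
  let n : Ideal Γ(A, V) := (hV.primeIdealOf ⟨x, hxV⟩).asIdeal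
  haveI hn : n.IsMaximal := hV.primeIdealOf_isMaximal_of_isClosed ⟨x, hxV⟩ hx
  have hft : φ₀.FiniteType := by
    have h1 : φ₀.IsStandardSmooth := hφ₀.isStandardSmooth
    algebraize [φ₀]
    exact RingHom.finiteType_algebraMap.2 inferInstance
  have hres : Function.Surjective ((Ideal.Quotient.mk n).comp φ₀) :=
    residue_surjective K Γ(A, V) φ₀ hft n
  letI : Algebra Γ(A, V) (A.presheaf.stalk x) :=
    TopCat.Presheaf.algebra_section_stalk A.presheaf ⟨x, hxV⟩
  haveI : IsLocalization.AtPrime (A.presheaf.stalk x) n := hV.isLocalization_stalk ⟨x, hxV⟩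
  exact h K g Γ(A, V) φ₀ hφ₀ n hres (A.presheaf.stalk x)

end Fermat.Agent.S26.LF.H18
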