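import Fermat.Agent.S26.LF.LF1Defs

/-!
# S26, package LF, leaf LF1b (helper30): change of variables

`stmt_LF1b : Stmt_LF1b` : for `0 ≠ f ∈ K⟦X₀,…,X_n⟧`, `K` an infinite field, some ring automorphism
`σ` gives `σ f` a nonzero coefficient at a pure power `X₀ ^ k`.

* `shearEquiv c` : the automorphism `X₀ ↦ X₀`, `X_{j+1} ↦ X_{j+1} + c_j X₀`
  (`MvPowerSeries.substAlgHom`, inverse `shearEquiv (-c)`);
* `pureHom` : the pure `X₀`-part `K⟦X₀,…,X_n⟧ → K⟦X⟧`, a ring homomorphism with
  `coeff k (pureHom p) = coeff (single 0 k) p`;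
* `coeff_shear` : the coefficient of `X₀ ^ k` in `shearEquiv c f` is the value at `(1, c)` of the
  homogeneous part of degree `k` of `f`;
* `exists_shear` : a nonzero homogeneous polynomial over an infinite field does not vanish at some
  point `(1, c)` (`MvPolynomial.funext` for `X₀ · P`, then homogeneity).
-/

set_option autoImplicit false

open MvPowerSeries

namespace Fermat.Agent.S26.LF.H30b

universe u

variable {K : Type u} [Field K] {n : ℕ}

/-- the shear `X₀ ↦ X₀`, `X_{j+1} ↦ X_{j+1} + c_j X₀` -/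
noncomputable def shear (c : Fin n → K) : Fin (n + 1) → MvPowerSeries (Fin (n + 1)) K :=
  Fin.cases (X 0) (fun j => X j.succ + C (c j) * X 0)

@[simp] theorem shear_zero (c : Fin n → K) : shear c 0 = X 0 := rfl

@[simp] theorem shear_succ (c : Fin n → K) (j : Fin n) :
    shear c j.succ = X j.succ + C (c j) * X 0 := rfl

theorem hasSubst_shear (c : Fin n → K) : HasSubst (shear c) :=
  hasSubst_of_constantCoeff_zero fun s => by
    refine Fin.cases ?_ (fun j => ?_) s
    · simp
    · simp

/-- the shear as an algebra endomorphism -/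
noncomputable def shearHom (c : Fin n → K) :
    MvPowerSeries (Fin (n + 1)) K →ₐ[K] MvPowerSeries (Fin (n + 1)) K :=
  substAlgHom (hasSubst_shear c)

theorem shearHom_X (c : Fin n → K) (s : Fin (n + 1)) : shearHom c (X s) = shear c s := by
  rw [shearHom, substAlgHom_X]

theorem shearHom_C (c : Fin n → K) (r : K) : shearHom c (C r) = C r := by
  have : (C r : MvPowerSeries (Fin (n + 1)) K) = algebraMap K _ r := rfl
  rw [this, AlgHom.commutes]

theorem shearHom_shear (c : Fin n → K) (s : Fin (n + 1)) :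
    shearHom (-c) (shear c s) = X s := by
  refine Fin.cases ?_ (fun j => ?_) s
  · rw [shear_zero, shearHom_X, shear_zero]
  · rw [shear_succ, map_add, map_mul, shearHom_X, shearHom_X, shearHom_C, shear_succ, shear_zero]
    simp

theorem shearHom_comp_apply (c : Fin n → K) (f : MvPowerSeries (Fin (n + 1)) K) :
    shearHom (-c) (shearHom c f) = f := by
  have h := substAlgHom_comp_substAlgHom_apply (R := K) (hasSubst_shear c) (hasSubst_shear (-c)) f
  rw [shearHom, shearHom, h, substAlgHom_apply]
  have hfam : (fun s => (substAlgHom (hasSubst_shear (-c))) (shear c s)) =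
      (X : Fin (n + 1) → MvPowerSeries (Fin (n + 1)) K) := by
    funext s
    exact shearHom_shear c s
  rw [hfam, subst_self]
  rfl

/-- the shear as a ring automorphism -/
noncomputable def shearEquiv (c : Fin n → K) :
    MvPowerSeries (Fin (n + 1)) K ≃+* MvPowerSeries (Fin (n + 1)) K :=
  (AlgEquiv.ofAlgHom (shearHom c) (shearHom (-c))
    (by
      ext1 f
      have := shearHom_comp_apply (-c) f
      rw [neg_neg] at this
      exact this)
    (by
      ext1 f
      exact shearHom_comp_apply c f)).toRingEquiv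

theorem shearEquiv_apply (c : Fin n → K) (f : MvPowerSeries (Fin (n + 1)) K) :
    shearEquiv c f = subst (shear c) f := by
  have h : shearEquiv c f = shearHom c f := rfl
  rw [h, shearHom, substAlgHom_apply]

/-- the pure `X₀`-part -/
noncomputable def pureHom (K : Type u) [Field K] (n : ℕ) :
    MvPowerSeries (Fin (n + 1)) K →+* PowerSeries K :=
  (PowerSeries.map (MvPowerSeries.constantCoeff (σ := Fin n) (R := K))).comp
    (MvPowerSeries.finSuccEquiv K n).toAlgHom.toRingHom

theorem pureHom_apply (p : MvPowerSeries (Fin (n + 1)) K) :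
    pureHom K n p = PowerSeries.map (MvPowerSeries.constantCoeff (σ := Fin n) (R := K))
      (MvPowerSeries.finSuccEquiv K n p) := rfl

theorem coeff_pureHom (p : MvPowerSeries (Fin (n + 1)) K) (k : ℕ) :
    PowerSeries.coeff k (pureHom K n p) = MvPowerSeries.coeff (Finsupp.single 0 k) p := by
  have he : (Finsupp.single 0 k : Fin (n + 1) →₀ ℕ) = Finsupp.cons k 0 := by
    ext i
    refine Fin.cases ?_ (fun j => ?_) i <;> simp
  rw [he, pureHom_apply, PowerSeries.coeff_map,
    ← MvPowerSeries.coeff_zero_eq_constantCoeff_apply]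
  exact MvPowerSeries.coeff_coeff_finSuccEquiv _

theorem pureHom_X_zero : pureHom K n (X 0) = PowerSeries.X := by
  rw [pureHom_apply, MvPowerSeries.finSuccEquiv_X_zero, PowerSeries.map_X]

theorem pureHom_X_succ (j : Fin n) : pureHom K n (X j.succ) = 0 := by
  rw [pureHom_apply, MvPowerSeries.finSuccEquiv_X_succ, PowerSeries.map_C]
  simp

theorem pureHom_C (r : K) : pureHom K n (C r) = PowerSeries.C r := by
  rw [pureHom_apply, MvPowerSeries.finSuccEquiv_C, PowerSeries.map_C]
  simp

/-- the weights `(1, c)` -/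
def wt (c : Fin n → K) : Fin (n + 1) → K := Fin.cases 1 c

@[simp] theorem wt_zero (c : Fin n → K) : wt c 0 = 1 := rfl

@[simp] theorem wt_succ (c : Fin n → K) (j : Fin n) : wt c j.succ = c j := rfl

theorem pureHom_shear (c : Fin n → K) (s : Fin (n + 1)) :
    pureHom K n (shear c s) = PowerSeries.C (wt c s) * PowerSeries.X := by
  refine Fin.cases ?_ (fun j => ?_) s
  · rw [shear_zero, pureHom_X_zero, wt_zero, map_one, one_mul]
  · rw [shear_succ, map_add, map_mul, pureHom_X_succ, pureHom_C, pureHom_X_zero, wt_succ,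
      zero_add]

/-- the value of the monomial `d` at the weights `w` -/
def monoVal (w : Fin (n + 1) → K) (d : Fin (n + 1) →₀ ℕ) : K := ∏ s, w s ^ d s

theorem pureHom_prod_shear (c : Fin n → K) (d : Fin (n + 1) →₀ ℕ) :
    pureHom K n (d.prod fun s e => (shear c s) ^ e) =
      PowerSeries.C (monoVal (wt c) d) * PowerSeries.X ^ (∑ s, d s) := by
  rw [Finsupp.prod_fintype _ _ (fun s => pow_zero _), map_prod]
  simp_rw [map_pow, pureHom_shear, mul_pow]
  rw [Finset.prod_mul_distrib, Finset.prod_pow_eq_pow_sum, monoVal, map_prod]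
  simp_rw [map_pow]

theorem coeff_prod_shear (c : Fin n → K) (d : Fin (n + 1) →₀ ℕ) (k : ℕ) :
    MvPowerSeries.coeff (Finsupp.single 0 k) (d.prod fun s e => (shear c s) ^ e) =
      if k = ∑ s, d s then monoVal (wt c) d else 0 := by
  rw [← coeff_pureHom, pureHom_prod_shear, PowerSeries.coeff_C_mul_X_pow]

/-- the coefficient of `X₀ ^ k` in the sheared series -/
theorem coeff_shear (c : Fin n → K) (f : MvPowerSeries (Fin (n + 1)) K) (k : ℕ) :
    MvPowerSeries.coeff (Finsupp.single 0 k) (subst (shear c) f) =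
      ∑ d ∈ Finset.finsuppAntidiag (Finset.univ : Finset (Fin (n + 1))) k,
        MvPowerSeries.coeff d f * monoVal (wt c) d := by
  rw [coeff_subst (hasSubst_shear c)]
  simp_rw [coeff_prod_shear, smul_eq_mul]
  rw [finsum_eq_sum_of_support_subset (s := Finset.finsuppAntidiag Finset.univ k)]
  · refine Finset.sum_congr rfl fun d hd => ?_
    rw [Finset.mem_finsuppAntidiag] at hd
    rw [if_pos hd.1.symm]
  · intro d hd
    rw [Function.mem_support] at hd
    rw [Finset.mem_coe, Finset.mem_finsuppAntidiag]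
    refine ⟨?_, Finset.subset_univ _⟩
    by_contra h
    apply hd
    rw [if_neg (fun h' => h h'.symm), mul_zero]

/-- the homogeneous part of degree `k` as a polynomial -/
noncomputable def homPart (f : MvPowerSeries (Fin (n + 1)) K) (k : ℕ) :
    MvPolynomial (Fin (n + 1)) K :=
  ∑ d ∈ Finset.finsuppAntidiag (Finset.univ : Finset (Fin (n + 1))) k,
    MvPolynomial.monomial d (MvPowerSeries.coeff d f)

theorem eval_homPart (f : MvPowerSeries (Fin (n + 1)) K) (k : ℕ) (w : Fin (n + 1) → K) :
    MvPolynomial.eval w (homPart f k) =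
      ∑ d ∈ Finset.finsuppAntidiag (Finset.univ : Finset (Fin (n + 1))) k,
        MvPowerSeries.coeff d f * monoVal w d := by
  rw [homPart, map_sum]
  refine Finset.sum_congr rfl fun d _ => ?_
  rw [MvPolynomial.eval_monomial, monoVal, Finsupp.prod_fintype _ _ (fun s => pow_zero _)]

theorem coeff_homPart (f : MvPowerSeries (Fin (n + 1)) K) (d : Fin (n + 1) →₀ ℕ) :
    MvPolynomial.coeff d (homPart f (∑ s, d s)) = MvPowerSeries.coeff d f := by
  classical
  rw [homPart, MvPolynomial.coeff_sum]
  simp_rw [MvPolynomial.coeff_monomial]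
  rw [Finset.sum_ite_eq' ]
  rw [if_pos]
  rw [Finset.mem_finsuppAntidiag]
  exact ⟨rfl, Finset.subset_univ _⟩

theorem monoVal_div (x : Fin (n + 1) → K) (a : K) (d : Fin (n + 1) →₀ ℕ) :
    monoVal (fun s => x s / a) d = monoVal x d / a ^ (∑ s, d s) := by
  simp only [monoVal, div_pow]
  rw [Finset.prod_div_distrib, Finset.prod_pow_eq_pow_sum]

/-- **The key existence**: a shear produces a pure power of `X₀`. -/
theorem exists_shear [Infinite K] (f : MvPowerSeries (Fin (n + 1)) K) (hf : f ≠ 0) :
    ∃ (c : Fin n → K) (k : ℕ),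
      MvPowerSeries.coeff (Finsupp.single 0 k) (subst (shear c) f) ≠ 0 := by
  obtain ⟨d₀, hd₀⟩ : ∃ d, MvPowerSeries.coeff d f ≠ 0 := by
    by_contra h
    apply hf
    ext d
    rw [not_exists] at h
    rw [not_not.1 (h d)]
    simp
  set k := ∑ s, d₀ s with hk
  have hQ : homPart f k ≠ 0 := by
    intro h
    apply hd₀
    rw [← coeff_homPart f d₀, ← hk, h, MvPolynomial.coeff_zero]
  have hP : (MvPolynomial.X 0 : MvPolynomial (Fin (n + 1)) K) * homPart f k ≠ 0 :=
    mul_ne_zero (MvPolynomial.X_ne_zero _) hQ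
  obtain ⟨x, hx⟩ : ∃ x : Fin (n + 1) → K,
      MvPolynomial.eval x ((MvPolynomial.X 0 : MvPolynomial (Fin (n + 1)) K) * homPart f k) ≠ 0 := by
    by_contra h
    apply hP
    apply MvPolynomial.funext
    intro x
    rw [not_exists] at h
    rw [not_not.1 (h x), map_zero]
  rw [map_mul, MvPolynomial.eval_X] at hx
  have hx0 : x 0 ≠ 0 := left_ne_zero_of_mul hx
  have hxQ : MvPolynomial.eval x (homPart f k) ≠ 0 := right_ne_zero_of_mul hx
  refine ⟨fun j => x j.succ / x 0, k, ?_⟩
  have hw : wt (fun j => x j.succ / x 0) = fun s => x s / x 0 := by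
    funext s
    refine Fin.cases ?_ (fun j => ?_) s
    · rw [wt_zero, div_self hx0]
    · rw [wt_succ]
  rw [coeff_shear, hw]
  have hsum : ∑ d ∈ Finset.finsuppAntidiag (Finset.univ : Finset (Fin (n + 1))) k,
      MvPowerSeries.coeff d f * monoVal (fun s => x s / x 0) d =
      MvPolynomial.eval x (homPart f k) / x 0 ^ k := by
    rw [eval_homPart, Finset.sum_div]
    refine Finset.sum_congr rfl fun d hd => ?_
    rw [Finset.mem_finsuppAntidiag] at hd
    rw [monoVal_div, hd.1, mul_div_assoc]
  rw [hsum]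
  exact div_ne_zero hxQ (pow_ne_zero _ hx0)

/-- **LF1b**. -/
theorem stmt_LF1b : Stmt_LF1b.{u} := by
  intro K _ _ n f hf
  obtain ⟨c, k, h⟩ := exists_shear f hf
  exact ⟨shearEquiv c, k, by rwa [shearEquiv_apply]⟩

end Fermat.Agent.S26.LF.H30b
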