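import Fermat.Agent.S26.LF.H34_LF1Defs

/-!
# S26, LF1, sub-leaf STEP (helper34): the Weierstrass step

Over a complete local UFD `A`, an irreducible power series `g ∈ A⟦X⟧` which is nonzero modulo the
maximal ideal is prime: by Weierstrass preparation `g = f h` with `f` distinguished and `h` a unit,
`A[X]/(f) ≃ A⟦X⟧/(g)`; `f` is irreducible in the UFD `A[X]`, hence prime.
-/

set_option autoImplicit false

open IsLocalRing Polynomial

universe u

namespace Fermat.Agent.S26.LF.H34

/-- a polynomial with unit leading coefficient whose reduction has degree zero is a unit -/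
theorem isUnit_poly_of_lc_of_map_isUnit {A : Type u} [CommRing A] [IsDomain A] [IsLocalRing A]
    (p : A[X]) (hlc : IsUnit p.leadingCoeff)
    (hp : IsUnit (p.map (residue A))) : IsUnit p := by
  have hne : residue A p.leadingCoeff ≠ 0 := by
    intro h0
    have : p.leadingCoeff ∈ maximalIdeal A := by
      rwa [← Ideal.Quotient.eq_zero_iff_mem]
    exact (IsLocalRing.mem_maximalIdeal _).1 this hlc
  have hdeg : (p.map (residue A)).natDegree = p.natDegree :=
    Polynomial.natDegree_map_of_leadingCoeff_ne_zero _ hne
  have h0 : (p.map (residue A)).natDegree = 0 := Polynomial.natDegree_eq_zero_of_isUnit hp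
  have hp0 : p.natDegree = 0 := by rw [← hdeg, h0]
  have hC : p = Polynomial.C p.leadingCoeff := by
    conv_lhs => rw [Polynomial.eq_C_of_natDegree_eq_zero hp0]
    rw [Polynomial.leadingCoeff, hp0]
  rw [hC]
  exact Polynomial.isUnit_C.2 hlc

/-- a divisor of a distinguished polynomial which is a unit as a power series is a unit -/
theorem isUnit_of_mul_eq_distinguished {A : Type u} [CommRing A] [IsDomain A] [IsLocalRing A]
    (f p q : A[X]) (hf : f.IsDistinguishedAt (maximalIdeal A)) (hpq : f = p * q)
    (hu : IsUnit (p : PowerSeries A)) : IsUnit p := by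
  have hmon : f.Monic := hf.monic
  have hlc : p.leadingCoeff * q.leadingCoeff = 1 := by
    rw [← Polynomial.leadingCoeff_mul, ← hpq]; exact hmon
  have hlcu : IsUnit p.leadingCoeff := IsUnit.of_mul_eq_one _ hlc
  refine isUnit_poly_of_lc_of_map_isUnit p hlcu ?_
  -- modulo the maximal ideal
  have hX : f.map (residue A) = Polynomial.X ^ f.natDegree := hf.map_eq_X_pow
  have hdvd : p.map (residue A) ∣ Polynomial.X ^ f.natDegree := by
    rw [← hX, hpq, Polynomial.map_mul]; exact dvd_mul_right _ _
  obtain ⟨i, -, hi⟩ := (dvd_prime_pow (Polynomial.prime_X) _).1 hdvd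
  -- the constant coefficient of `p` is a unit
  have hc : IsUnit (p.coeff 0) := by
    have := (PowerSeries.isUnit_iff_constantCoeff).1 hu
    simpa using this
  have hc' : (p.map (residue A)).coeff 0 ≠ 0 := by
    rw [Polynomial.coeff_map]
    intro h0
    have : p.coeff 0 ∈ maximalIdeal A := by
      rwa [← Ideal.Quotient.eq_zero_iff_mem]
    exact (IsLocalRing.mem_maximalIdeal _).1 this hc
  rcases Nat.eq_zero_or_pos i with rfl | hpos
  · rw [pow_zero] at hi
    exact (hi.isUnit_iff).2 isUnit_one
  · exfalso
    have hXdvd : (Polynomial.X : (ResidueField A)[X]) ∣ p.map (residue A) :=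
      (dvd_pow_self _ hpos.ne').trans hi.symm.dvd
    exact hc' (Polynomial.X_dvd_iff.1 hXdvd)

/-- **STEP**. -/
theorem stmt_LF1_Step : Stmt_LF1_Step.{u} := by
  intro A _ _ _ _ _ _ g hg hirr
  obtain ⟨f, h, H⟩ := PowerSeries.exists_isWeierstrassFactorization hg
  have hfd := H.isDistinguishedAt
  have hgeq : g = (f : PowerSeries A) * h := H.eq_mul
  -- `f` is irreducible
  have hfirr : Irreducible f := by
    refine ⟨?_, ?_⟩
    · intro hfu
      apply hirr.not_isUnit
      rw [hgeq]
      exact (hfu.map (Polynomial.coeToPowerSeries.ringHom (R := A))).mul H.isUnit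
    · intro p q hpq
      have hg' : g = (p : PowerSeries A) * ((q : PowerSeries A) * h) := by
        rw [hgeq, hpq, Polynomial.coe_mul, mul_assoc]
      rcases hirr.isUnit_or_isUnit hg' with hu | hu
      · exact Or.inl (isUnit_of_mul_eq_distinguished f p q hfd hpq hu)
      · right
        have hqu : IsUnit (q : PowerSeries A) := isUnit_of_mul_isUnit_left hu
        exact isUnit_of_mul_eq_distinguished f q p hfd (by rw [hpq, mul_comm]) hqu
  have hfprime : Prime f := hfirr.prime
  have hf0 : f ≠ 0 := hfprime.ne_zero
  have hIf : (Ideal.span {f}).IsPrime := (Ideal.span_singleton_prime hf0).2 hfprime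
  have : IsDomain (A[X] ⧸ Ideal.span {f}) := (Ideal.Quotient.isDomain_iff_prime _).2 hIf
  have : IsDomain (PowerSeries A ⧸ Ideal.span {g}) :=
    H.algEquivQuotient.toRingEquiv.toMulEquiv.symm.isDomain
  have hIg : (Ideal.span {g}).IsPrime := (Ideal.Quotient.isDomain_iff_prime _).1 inferInstance
  exact (Ideal.span_singleton_prime hirr.ne_zero).1 hIg

end Fermat.Agent.S26.LF.H34
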