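import Mathlib

/-!
# S26, package LF, leaf LF1 (helper34): `K⟦t₁,…,t_n⟧` is a UFD — interface of the sub-leaves

Route: induction on `n` with `MvPowerSeries.finSuccEquiv : K⟦t₀,…,t_n⟧ ≃ A⟦X⟧`, `A = K⟦t₁,…,t_n⟧`.
`A⟦X⟧` is a noetherian domain (well-founded divisibility); an irreducible `g` becomes regular in
`t₀` after a linear automorphism (`K` infinite); Weierstrass preparation (Mathlib) `g = f h`,
`f` a distinguished polynomial, `A[X]/(f) ≃ A⟦X⟧/(g)`; `f` is irreducible in the UFD `A[X]`, hence
prime, hence `g` is prime.

* `Stmt_LF1_Step`         : the Weierstrass step (abstract, Mathlib only)            [helper34];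
* `Stmt_LF1_CompleteStep` : `A` complete local ⟹ `A⟦X⟧` complete local               [OPEN];
* `Stmt_LF1_Complete`     : `K⟦t₁,…,t_n⟧` is complete (from `CompleteStep` by induction) [OPEN];
* `Stmt_LF1_Reg`          : regularisation by a linear automorphism                  [OPEN];
* assembly `Stmt_LF1` from the three                                                [helper34].
-/

set_option autoImplicit false

open IsLocalRing

universe u

namespace Fermat.Agent.S26.LF.H34

/-- **Step**: over a complete noetherian local UFD `A`, an irreducible power series which is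
regular (nonzero modulo the maximal ideal of `A`) is prime. -/
def Stmt_LF1_Step : Prop :=
  ∀ (A : Type u) [CommRing A] [IsDomain A] [IsLocalRing A] [IsNoetherianRing A]
    [IsAdicComplete (maximalIdeal A) A] [UniqueFactorizationMonoid A]
    (g : PowerSeries A), g.map (residue A) ≠ 0 → Irreducible g → Prime g

/-- **CompleteStep**: power series over a complete local ring form a complete local ring. -/
def Stmt_LF1_CompleteStep : Prop :=
  ∀ (A : Type u) [CommRing A] [IsLocalRing A] [IsAdicComplete (maximalIdeal A) A],
    IsAdicComplete (maximalIdeal (PowerSeries A)) (PowerSeries A)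

/-- **Complete**: `K⟦t₁,…,t_n⟧` is complete for its maximal ideal. -/
def Stmt_LF1_Complete : Prop :=
  ∀ (K : Type u) [Field K] (n : ℕ),
    IsAdicComplete (maximalIdeal (MvPowerSeries (Fin n) K)) (MvPowerSeries (Fin n) K)

/-- **Reg**: a nonzero power series in `n + 1` variables over an infinite field has, after a
`K`-algebra automorphism, a nonzero coefficient at a pure power of the first variable. -/
def Stmt_LF1_Reg : Prop :=
  ∀ (K : Type u) [Field K] [Infinite K] (n : ℕ) (g : MvPowerSeries (Fin (n + 1)) K), g ≠ 0 →
    ∃ θ : MvPowerSeries (Fin (n + 1)) K ≃ₐ[K] MvPowerSeries (Fin (n + 1)) K,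
      ∃ k : ℕ, MvPowerSeries.coeff (Finsupp.single 0 k) (θ g) ≠ 0

/-- **LF1** (the same Prop as `LF.Stmt_LF1`). -/
def Stmt_LF1' : Prop :=
  ∀ (K : Type u) [Field K] [Infinite K] (n : ℕ),
    UniqueFactorizationMonoid (MvPowerSeries (Fin n) K)

end Fermat.Agent.S26.LF.H34
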