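import Fermat.Agent.S26.LF.Defs

/-!
# S26, package LF, leaf LFloc (helper90)

`stmt_LFloc : Stmt_LFloc` : if the stalks of a smooth `K`-scheme at the closed points are UFDs,
then so are the stalks at all points.

Proof: a scheme locally of finite type over a field is a Jacobson space, so every point `x`
specialises to a closed point `x₀`; on an affine open neighbourhood `U` of `x₀` both stalks are
localisations of `Γ(U)`, hence the stalk at `x` is a localisation of the stalk at `x₀`; a
localisation of a UFD is a UFD.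
-/

set_option autoImplicit false
set_option linter.style.haveILetI false

open CategoryTheory CategoryTheory.Limits AlgebraicGeometry TopologicalSpace

universe u

namespace Fermat.Agent.S26.LF.H90

/-- On a Jacobson space every point specialises to a closed point. -/
theorem exists_closed_specializes {X : Type*} [TopologicalSpace X] [JacobsonSpace X] (x : X) :
    ∃ x₀ : X, IsClosed ({x₀} : Set X) ∧ x ⤳ x₀ := by
  obtain ⟨x₀, hx₀mem, hx₀cl⟩ := nonempty_inter_closedPoints (Z := closure ({x} : Set X))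
    ⟨x, subset_closure rfl⟩ isClosed_closure.isLocallyClosed
  exact ⟨x₀, hx₀cl, specializes_iff_mem_closure.2 hx₀mem⟩

/-- If `x ⤳ x₀` in a scheme and the stalk at `x₀` is a UFD, then the stalk at `x` is a UFD. -/
theorem ufm_stalk_of_specializes {X : Scheme.{u}} {x x₀ : X} (h : x ⤳ x₀)
    (hx₀ : UniqueFactorizationMonoid (X.presheaf.stalk x₀)) :
    UniqueFactorizationMonoid (X.presheaf.stalk x) := by
  obtain ⟨_, ⟨U, hU : IsAffineOpen U, rfl⟩, hx₀U, -⟩ :=
    X.isBasis_affineOpens.exists_subset_of_mem_open (Set.mem_univ x₀) isOpen_univ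
  have hxU : x ∈ U := h.mem_open U.isOpen hx₀U
  letI a₀ : Algebra Γ(X, U) (X.presheaf.stalk x₀) :=
    TopCat.Presheaf.algebra_section_stalk X.presheaf ⟨x₀, hx₀U⟩
  letI a₁ : Algebra Γ(X, U) (X.presheaf.stalk x) :=
    TopCat.Presheaf.algebra_section_stalk X.presheaf ⟨x, hxU⟩
  have l₀ : IsLocalization.AtPrime (X.presheaf.stalk x₀) (hU.primeIdealOf ⟨x₀, hx₀U⟩).asIdeal :=
    hU.isLocalization_stalk ⟨x₀, hx₀U⟩
  have l₁ : IsLocalization.AtPrime (X.presheaf.stalk x) (hU.primeIdealOf ⟨x, hxU⟩).asIdeal :=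
    hU.isLocalization_stalk ⟨x, hxU⟩
  letI a₂ : Algebra (X.presheaf.stalk x₀) (X.presheaf.stalk x) :=
    (X.presheaf.stalkSpecializes h).hom.toAlgebra
  have hcomp : ∀ s : Γ(X, U), algebraMap (X.presheaf.stalk x₀) (X.presheaf.stalk x)
      (algebraMap Γ(X, U) (X.presheaf.stalk x₀) s) =
        algebraMap Γ(X, U) (X.presheaf.stalk x) s := by
    intro s
    exact TopCat.Presheaf.germ_stalkSpecializes_apply X.presheaf hx₀U h s
  have hst : IsScalarTower Γ(X, U) (X.presheaf.stalk x₀) (X.presheaf.stalk x) :=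
    IsScalarTower.of_algebraMap_eq fun s => (hcomp s).symm
  have hle : (hU.primeIdealOf ⟨x₀, hx₀U⟩).asIdeal.primeCompl ≤
      (hU.primeIdealOf ⟨x, hxU⟩).asIdeal.primeCompl := by
    intro s hs
    have hu : IsUnit (algebraMap Γ(X, U) (X.presheaf.stalk x₀) s) :=
      (IsLocalization.AtPrime.isUnit_to_map_iff (X.presheaf.stalk x₀)
        (hU.primeIdealOf ⟨x₀, hx₀U⟩).asIdeal s).2 hs
    have hu' : IsUnit (algebraMap Γ(X, U) (X.presheaf.stalk x) s) := by
      rw [← hcomp s]
      exact hu.map _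
    exact (IsLocalization.AtPrime.isUnit_to_map_iff (X.presheaf.stalk x)
        (hU.primeIdealOf ⟨x, hxU⟩).asIdeal s).1 hu'
  have hloc : IsLocalization ((hU.primeIdealOf ⟨x, hxU⟩).asIdeal.primeCompl.map
      (algebraMap Γ(X, U) (X.presheaf.stalk x₀))) (X.presheaf.stalk x) :=
    IsLocalization.isLocalization_of_submonoid_le (X.presheaf.stalk x₀) (X.presheaf.stalk x)
      (hU.primeIdealOf ⟨x₀, hx₀U⟩).asIdeal.primeCompl
      (hU.primeIdealOf ⟨x, hxU⟩).asIdeal.primeCompl hle
  exact UniqueFactorizationMonoid.of_isLocalization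
    ((hU.primeIdealOf ⟨x, hxU⟩).asIdeal.primeCompl.map
      (algebraMap Γ(X, U) (X.presheaf.stalk x₀))) (X.presheaf.stalk x)

/-- **LFloc**: `LFc → LF`. -/
theorem stmt_LFloc : Stmt_LFloc.{u} := by
  intro hc K _ _ A f g _ _ _ x
  have hsm : Smooth f := SmoothOfRelativeDimension.smooth g f
  have hft : LocallyOfFiniteType f := inferInstance
  have hJ : JacobsonSpace A := LocallyOfFiniteType.jacobsonSpace f
  obtain ⟨x₀, hx₀cl, hspec⟩ := exists_closed_specializes (X := A) x
  exact ufm_stalk_of_specializes hspec (hc K f g x₀ hx₀cl)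

end Fermat.Agent.S26.LF.H90
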