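import Mathlib
import Fermat.Agent.S26.LF.Defs

/-!
# S26, package LF, leaf LF3 (helper9): faithfully flat descent of unique factorisation

`O → S` faithfully flat, `O` a noetherian domain, `S` a local domain which is a UFD.  Then `O` is a
UFD.  (Applied to `O = 𝒪_{A,x}`, `S = K⟦t₁,…,t_g⟧` its completion.)

Proof: for `a b : O`, `a ≠ 0`, the colon ideal `J = (b : a)` satisfies `J S = (φ b : φ a)` by the
equational criterion of flatness; in the UFD `S` the latter is principal, `= (s)`; as `S` is local
one of the generators of `J` generates `J S`, hence `J` (faithful flatness).  So `(a) ∩ (b) = a J`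
is principal: `O` is a GCD domain, and noetherian, hence a UFD.
-/

set_option autoImplicit false

universe u

namespace Fermat.Agent.S26.LF.H9

variable {O S : Type*} [CommRing O] [CommRing S] [Algebra O S]

/-- The colon ideal `(b : a) = {x | b ∣ a x}`. -/
def colonJ (a b : O) : Ideal O where
  carrier := {x | b ∣ a * x}
  add_mem' := by
    intro x y hx hy
    simp only [Set.mem_ofPred_eq] at hx hy ⊢
    rw [mul_add]
    exact dvd_add hx hy
  zero_mem' := by simp
  smul_mem' := by
    intro c x hx
    simp only [Set.mem_ofPred_eq, smul_eq_mul] at hx ⊢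
    rw [mul_left_comm]
    exact Dvd.dvd.mul_left hx c

theorem mem_colonJ {a b x : O} : x ∈ colonJ a b ↔ b ∣ a * x := Iff.rfl

/-- Flatness: the colon ideal extends. -/
theorem mem_map_colonJ_of_flat [Module.Flat O S] (a b : O) (y : S)
    (h : algebraMap O S b ∣ algebraMap O S a * y) :
    y ∈ Ideal.map (algebraMap O S) (colonJ a b) := by
  obtain ⟨z, hz⟩ := h
  have hrel : ∑ i : Fin 2, (![a, -b] i) • (![y, z] i) = 0 := by
    simp only [Fin.sum_univ_two, Matrix.cons_val_zero, Matrix.cons_val_one, Algebra.smul_def,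
      map_neg]
    rw [hz]; ring
  obtain ⟨k, A, Y, hx, hf⟩ := Module.Flat.isTrivialRelation_of_sum_smul_eq_zero
    (R := O) (M := S) (f := ![a, -b]) (x := ![y, z]) hrel
  have hy : y = ∑ j, A 0 j • Y j := by simpa using hx 0
  rw [hy]
  refine Ideal.sum_mem _ fun j _ => ?_
  rw [Algebra.smul_def]
  refine Ideal.mul_mem_right _ _ (Ideal.mem_map_of_mem _ ?_)
  have := hf j
  simp only [Fin.sum_univ_two, Matrix.cons_val_zero, Matrix.cons_val_one] at this
  rw [mem_colonJ]
  exact ⟨A 1 j, by linear_combination this⟩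

/-- the colon ideal `(b : a)` is principal -/
theorem colonJ_principal (S : Type*) [CommRing S] [Algebra O S] [IsDomain O] [IsNoetherianRing O]
    [IsDomain S] [IsLocalRing S] [UniqueFactorizationMonoid S] [Module.FaithfullyFlat O S]
    (a b : O) (ha : a ≠ 0) (hb : b ≠ 0) :
    ∃ c : O, colonJ a b = Ideal.span {c} := by
  classical
  set φ := algebraMap O S with hφ
  have hinj : Function.Injective φ := FaithfulSMul.algebraMap_injective O S
  have hφa : φ a ≠ 0 := fun h => ha (hinj (by rw [h, map_zero]))
  have hφb : φ b ≠ 0 := fun h => hb (hinj (by rw [h, map_zero]))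
  -- the lcm in `S`
  obtain ⟨l, hl⟩ := (isGCDMonoid_iff_exists_lcm.mp (inferInstance : IsGCDMonoid S)).2 (φ a) (φ b)
  obtain ⟨s, hs⟩ : φ a ∣ l := ((hl l).2 dvd_rfl).1
  have hkey : ∀ y : S, φ b ∣ φ a * y ↔ s ∣ y := by
    intro y
    constructor
    · intro h
      have : l ∣ φ a * y := (hl _).1 ⟨dvd_mul_right _ _, h⟩
      rw [hs] at this
      exact (mul_dvd_mul_iff_left hφa).1 this
    · intro h
      have : l ∣ φ a * y := by rw [hs]; exact mul_dvd_mul_left _ h
      exact ((hl _).2 this).2
  have hs0 : s ≠ 0 := by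
    intro h
    have : s ∣ φ b := (hkey _).1 (dvd_mul_left _ _)
    rw [h, zero_dvd_iff] at this
    exact hφb this
  -- `J S = (s)`
  have hJS : Ideal.map φ (colonJ a b) = Ideal.span {s} := by
    apply le_antisymm
    · rw [Ideal.map_le_iff_le_comap]
      intro x hx
      rw [Ideal.mem_comap, Ideal.mem_span_singleton]
      rw [mem_colonJ] at hx
      apply (hkey _).1
      rw [← map_mul]
      exact map_dvd φ hx
    · rw [Ideal.span_singleton_le_iff_mem]
      exact mem_map_colonJ_of_flat a b s ((hkey s).2 dvd_rfl)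
  -- generators
  obtain ⟨T, hT⟩ := (isNoetherianRing_iff_ideal_fg O).1 inferInstance (colonJ a b)
  have hmapT : Ideal.map φ (colonJ a b) = Ideal.span (φ '' (T : Set O)) := by
    rw [← hT, Ideal.map_span]
  have hsmem : s ∈ Ideal.span (φ '' (T : Set O)) := by
    rw [← hmapT, hJS]; exact Ideal.mem_span_singleton_self s
  have hdiv : ∀ t ∈ T, ∃ z : S, φ t = s * z := by
    intro t ht
    have : φ t ∈ Ideal.span {s} := by
      rw [← hJS]
      exact Ideal.mem_map_of_mem _ (by rw [← hT]; exact Ideal.subset_span ht)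
    exact Ideal.mem_span_singleton.1 this
  choose! z hz using hdiv
  -- some `z t` is a unit
  have hex : ∃ t ∈ T, IsUnit (z t) := by
    by_contra hcon
    push Not at hcon
    have hle : Ideal.span (φ '' (T : Set O)) ≤ Ideal.span {s} * IsLocalRing.maximalIdeal S := by
      rw [Ideal.span_le]
      rintro _ ⟨t, ht, rfl⟩
      rw [SetLike.mem_coe, hz t ht]
      exact Ideal.mul_mem_mul (Ideal.mem_span_singleton_self s)
        ((IsLocalRing.mem_maximalIdeal _).2 (hcon t ht))
    obtain ⟨m, hm, hms⟩ := Ideal.mem_span_singleton_mul.1 (hle hsmem)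
    have h1 : m = 1 := by
      have : s * m = s * 1 := by rw [hms, mul_one]
      exact mul_left_cancel₀ hs0 this
    rw [h1] at hm
    exact (IsLocalRing.mem_maximalIdeal _).1 hm isUnit_one
  obtain ⟨t, ht, hu⟩ := hex
  refine ⟨t, ?_⟩
  have htJ : t ∈ colonJ a b := by rw [← hT]; exact Ideal.subset_span ht
  have hmap : Ideal.map φ (Ideal.span {t}) = Ideal.map φ (colonJ a b) := by
    rw [hJS, Ideal.map_span, Set.image_singleton, hz t ht]
    exact Ideal.span_singleton_mul_right_unit hu s
  have h1 := Ideal.comap_map_eq_self_of_faithfullyFlat (B := S) (colonJ a b)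
  have h2 := Ideal.comap_map_eq_self_of_faithfullyFlat (B := S) (Ideal.span {t} : Ideal O)
  rw [← h1, ← h2]
  exact congrArg (Ideal.comap (algebraMap O S)) hmap.symm

/-- Any two elements of `O` have a least common multiple. -/
theorem exists_lcm (S : Type*) [CommRing S] [Algebra O S] [IsDomain O] [IsNoetherianRing O]
    [IsDomain S] [IsLocalRing S] [UniqueFactorizationMonoid S] [Module.FaithfullyFlat O S]
    (a b : O) : ∃ c : O, ∀ d : O, a ∣ d ∧ b ∣ d ↔ c ∣ d := by
  by_cases ha : a = 0
  · refine ⟨0, fun d => ?_⟩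
    subst ha
    simp only [zero_dvd_iff]
    constructor
    · exact fun h => h.1
    · intro h; subst h; exact ⟨rfl, dvd_zero _⟩
  by_cases hb : b = 0
  · refine ⟨0, fun d => ?_⟩
    subst hb
    simp only [zero_dvd_iff]
    constructor
    · exact fun h => h.2
    · intro h; subst h; exact ⟨dvd_zero _, rfl⟩
  obtain ⟨c, hc⟩ := colonJ_principal S a b ha hb
  refine ⟨a * c, fun d => ?_⟩
  constructor
  · rintro ⟨⟨d', rfl⟩, hbd⟩
    have : d' ∈ colonJ a b := hbd
    rw [hc, Ideal.mem_span_singleton] at this
    exact mul_dvd_mul_left a this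
  · intro h
    refine ⟨(dvd_mul_right a c).trans h, ?_⟩
    have : c ∈ colonJ a b := by rw [hc]; exact Ideal.mem_span_singleton_self c
    exact (mem_colonJ.1 this).trans h

/-- **LF3**: faithfully flat descent of unique factorisation. -/
theorem ufm_of_faithfullyFlat (O S : Type*) [CommRing O] [CommRing S] [Algebra O S] [IsDomain O]
    [IsNoetherianRing O] [IsDomain S] [IsLocalRing S] [UniqueFactorizationMonoid S]
    [Module.FaithfullyFlat O S] : UniqueFactorizationMonoid O := by
  have : IsGCDMonoid O := isGCDMonoid_iff_exists_lcm.mpr ⟨inferInstance, exists_lcm S⟩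
  infer_instance

/-- **LF3** in the form of the interface. -/
theorem stmt_LF3 : Stmt_LF3.{u} := fun O S _ _ _ _ _ _ _ _ _ => ufm_of_faithfullyFlat O S

end Fermat.Agent.S26.LF.H9
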