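import Mathlib
import Fermat.Agent.S26.LF.Defs
import Fermat.Agent.S53.Limit

/-!
# S26, package LF, leaf LF1 (`K⟦t₁,…,t_n⟧` is a UFD): split and assembly (helper9)

* `Stmt_LF1a` (Weierstrass + Gauss): `A` a complete noetherian local domain which is a UFD,
  `f : A⟦X⟧` irreducible and regular in `X` (its reduction modulo `𝔪_A` is not zero) ⟹ `f` is prime.
* `Stmt_LF1b` (change of variables): `K` infinite, `0 ≠ f ∈ K⟦X₀,…,X_n⟧` ⟹ some ring automorphism
  `σ` makes `σ f` regular in `X₀`: the coefficient of some pure power `X₀ ^ k` in `σ f` is not zero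
  (`σ : X_i ↦ X_i + c_i X₀` for `i ≠ 0`).
* `stmt_LF1_of : Stmt_LF1a → Stmt_LF1b → Stmt_LF1` (induction on `n`).
-/

set_option autoImplicit false
set_option linter.style.haveILetI false

open IsLocalRing

universe u

namespace Fermat.Agent.S26.LF

/-- **LF1a**: an irreducible power series over a complete local UFD which is regular in `X` is
prime. -/
def Stmt_LF1a : Prop :=
  ∀ (A : Type u) [CommRing A] [IsDomain A] [IsLocalRing A] [IsNoetherianRing A]
    [IsAdicComplete (maximalIdeal A) A] [UniqueFactorizationMonoid A]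
    (f : PowerSeries A), Irreducible f → f.map (residue A) ≠ 0 → Prime f

/-- **LF1b**: after a ring automorphism a nonzero power series over an infinite field has a
nonzero coefficient at a pure power of `X₀`. -/
def Stmt_LF1b : Prop :=
  ∀ (K : Type u) [Field K] [Infinite K] (n : ℕ) (f : MvPowerSeries (Fin (n + 1)) K), f ≠ 0 →
    ∃ (σ : MvPowerSeries (Fin (n + 1)) K ≃+* MvPowerSeries (Fin (n + 1)) K) (k : ℕ),
      MvPowerSeries.coeff (Finsupp.single 0 k) (σ f) ≠ 0

namespace H9

variable (K : Type u) [Field K]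

instance isDomain_mvPowerSeries (σ : Type*) : IsDomain (MvPowerSeries σ K) :=
  NoZeroDivisors.to_isDomain _

theorem isAdicComplete_field : IsAdicComplete (maximalIdeal K) K := by
  have h : maximalIdeal K = ⊥ := IsLocalRing.maximalIdeal_eq_bot
  rw [h]
  infer_instance

theorem isAdicComplete_mvPowerSeries (n : ℕ) :
    IsAdicComplete (maximalIdeal (MvPowerSeries (Fin n) K)) (MvPowerSeries (Fin n) K) :=
  haveI := isAdicComplete_field K
  Fermat.Agent.S53.Limit.isAdicComplete_mvPowerSeries_fin K n

/-- the residue of a power series vanishes iff its constant coefficient does -/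
theorem residue_eq_zero_iff (n : ℕ) (a : MvPowerSeries (Fin n) K) :
    residue (MvPowerSeries (Fin n) K) a = 0 ↔ MvPowerSeries.constantCoeff a = 0 := by
  rw [IsLocalRing.residue_eq_zero_iff, mem_maximalIdeal, mem_nonunits_iff,
    MvPowerSeries.isUnit_iff_constantCoeff, isUnit_iff_ne_zero, not_not]

/-- regularity in `X₀` in terms of coefficients -/
theorem map_residue_finSuccEquiv_ne_zero (n : ℕ) (p : MvPowerSeries (Fin (n + 1)) K) (k : ℕ)
    (h : MvPowerSeries.coeff (Finsupp.single 0 k) p ≠ 0) :
    (MvPowerSeries.finSuccEquiv K n p).map (residue (MvPowerSeries (Fin n) K)) ≠ 0 := by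
  intro h0
  have h1 : PowerSeries.coeff k
      ((MvPowerSeries.finSuccEquiv K n p).map (residue (MvPowerSeries (Fin n) K))) = 0 := by
    rw [h0]; simp
  rw [PowerSeries.coeff_map, residue_eq_zero_iff] at h1
  apply h
  rw [← MvPowerSeries.coeff_zero_eq_constantCoeff_apply,
    MvPowerSeries.coeff_coeff_finSuccEquiv] at h1
  have he : (Finsupp.single 0 k : Fin (n + 1) →₀ ℕ) = Finsupp.cons k 0 := by
    ext i
    refine Fin.cases ?_ (fun j => ?_) i <;> simp
  rw [he]
  exact h1

end H9

open H9 in
/-- **LF1** from its two halves. -/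
theorem stmt_LF1_of (ha : Stmt_LF1a.{u}) (hb : Stmt_LF1b.{u}) : Stmt_LF1.{u} := by
  intro K _ _ n
  induction n with
  | zero =>
    exact (MvPowerSeries.isEmptyEquiv (Fin 0) K).toMulEquiv.symm.uniqueFactorizationMonoid
      inferInstance
  | succ n ih =>
    haveI := ih
    haveI := isAdicComplete_mvPowerSeries K n
    refine { toIsCancelMulZero := inferInstance, toIsWellFounded := ?_, irreducible_iff_prime := ?_ }
    · exact (inferInstance : WfDvdMonoid (MvPowerSeries (Fin (n + 1)) K))
    · intro f
      refine ⟨fun hf => ?_, Prime.irreducible⟩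
      obtain ⟨σ, k, hk⟩ := hb K n f hf.ne_zero
      have h1 : Irreducible (σ f) := (MulEquiv.irreducible_iff σ.toMulEquiv).2 hf
      have h2 : Irreducible (MvPowerSeries.finSuccEquiv K n (σ f)) :=
        (MulEquiv.irreducible_iff (MvPowerSeries.finSuccEquiv K n).toMulEquiv).2 h1
      have h3 := ha (MvPowerSeries (Fin n) K) _ h2 (map_residue_finSuccEquiv_ne_zero K n _ k hk)
      have h4 : Prime (σ f) :=
        (MulEquiv.prime_iff (MvPowerSeries.finSuccEquiv K n).toMulEquiv).1 h3
      exact (MulEquiv.prime_iff σ.toMulEquiv).1 h4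

end Fermat.Agent.S26.LF
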