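import Mathlib
import Fermat.Agent.S26.LF.Defs
import Fermat.Agent.S26.LF.LF1Defs
import Fermat.Agent.S26.LF.H34_LF1Defs
import Fermat.Agent.S26.LF.H9_Descent
import Fermat.Agent.S26.LF.H90_LFloc

/-!
# S26, package LF: wiring (helper9)

`stmt_LF_of : H34.Stmt_LF1_Step → Stmt_LF1b → Stmt_LF2 → Stmt_LF`
(LF3 = `H9.stmt_LF3`, LFloc = `H90.stmt_LFloc`, induction = `stmt_LF1_of` are plugged).
-/

set_option autoImplicit false

universe u

namespace Fermat.Agent.S26.LF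

/-- helper34's `Stmt_LF1_Step` is `Stmt_LF1a`. -/
theorem stmt_LF1a_of_step (h : H34.Stmt_LF1_Step.{u}) : Stmt_LF1a.{u} :=
  fun A _ _ _ _ _ _ f hf hreg => h A f hreg hf

/-- helper34's `Stmt_LF1_Reg` gives `Stmt_LF1b`. -/
theorem stmt_LF1b_of_reg (h : H34.Stmt_LF1_Reg.{u}) : Stmt_LF1b.{u} := by
  intro K _ _ n f hf
  obtain ⟨θ, k, hk⟩ := h K n f hf
  exact ⟨θ.toRingEquiv, k, hk⟩

/-- **LF** from the open leaves. -/
theorem stmt_LF_of (hstep : H34.Stmt_LF1_Step.{u}) (hb : Stmt_LF1b.{u}) (h2 : Stmt_LF2.{u}) :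
    Stmt_LF.{u} :=
  H90.stmt_LFloc (stmt_LFc_of (stmt_LF1_of (stmt_LF1a_of_step hstep) hb) h2 H9.stmt_LF3)

end Fermat.Agent.S26.LF
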