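import Mathlib
import Fermat.Agent.S26.LF.H9_Wire
import Fermat.Agent.S26.LF.H34_LF1Step
import Fermat.Agent.S26.LF.H30_LF1b
import Fermat.Agent.S26.LF.H18_Sch
import Fermat.Agent.S26.LF.H47_Alg

/-!
# S26, package LF: final assembly (helper9)

`H9.stmt_LF : Stmt_LF` — every stalk of a smooth scheme of relative dimension `g` over an
algebraically closed field is a unique factorisation domain.  All leaves are plugged:
LF1a (helper34), LF1b (helper30), LF2 (helper18 scheme side + helper47 algebra),
LF3 (helper9), LFloc (helper90).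
-/

set_option autoImplicit false

universe u

namespace Fermat.Agent.S26.LF.H9

/-- **LF2**: the stalk at a closed point has a flat local homomorphism to `K⟦t₁,…,t_g⟧`. -/
theorem stmt_LF2 : Stmt_LF2.{u} :=
  H18.stmt_LF2_of (fun K _ g S _ f hf n _ hres O _ _ _ => H47.lf2_alg K g S f hf n hres O)

/-- **LF1**: `K⟦t₁,…,t_n⟧` is a unique factorisation domain (`K` an infinite field). -/
theorem stmt_LF1 : Stmt_LF1.{u} :=
  stmt_LF1_of (stmt_LF1a_of_step H34.stmt_LF1_Step) H30b.stmt_LF1b

/-- **LFc**: stalks at closed points are unique factorisation domains. -/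
theorem stmt_LFc : Stmt_LFc.{u} :=
  stmt_LFc_of stmt_LF1 stmt_LF2 H9.stmt_LF3

/-- **LF** (unconditional): all stalks are unique factorisation domains. -/
theorem stmt_LF : Stmt_LF.{u} :=
  stmt_LF_of H34.stmt_LF1_Step H30b.stmt_LF1b stmt_LF2

end Fermat.Agent.S26.LF.H9
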