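import Fermat.Agent.S26.LF.H18_Sch
import Fermat.Agent.S26.LF.H47_Alg

/-!
# S26, package LF, leaf LF2: final wiring (helper18 + helper47)

`stmt_LF2 : Stmt_LF2`: the stalk of a smooth `K`-scheme of relative dimension `g` at a closed
point has a flat local homomorphism to `MvPowerSeries (Fin g) K` (`K` algebraically closed).
Scheme side: `H18.stmt_LF2_of`; algebra side: `H47.lf2_alg`.
-/

set_option autoImplicit false

universe u

namespace Fermat.Agent.S26.LF.H18

/-- helper47's `lf2_alg` in the packaged form `Stmt_LF2Alg`. -/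
theorem stmt_LF2Alg : Stmt_LF2Alg.{u} :=
  fun K _ g S _ f hf n _ hres O _ _ _ => Fermat.Agent.S26.LF.H47.lf2_alg K g S f hf n hres O

/-- **LF2** (closed). -/
theorem stmt_LF2 : Stmt_LF2.{u} := stmt_LF2_of stmt_LF2Alg

end Fermat.Agent.S26.LF.H18
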