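import Fermat.Agent.S26.LF.Defs

/-!
# S26, package LF, leaf LFloc (helper30)

`stmt_LFloc : Stmt_LFloc` : if the stalks of a smooth `K`-scheme at the closed points are UFDs, so
are the stalks at all points.

* `A` is locally of finite type over a field, so it is a Jacobson space: every point `x`
  specialises to a closed point `y`;
* the stalk at `x` is the localisation of the stalk at `y` at the image of the complement of the
  prime of `x` (`IsLocalization.isLocalization_of_submonoid_le`, inside an affine open
  neighbourhood of `y`);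
* a localisation of a UFD is a UFD (`UniqueFactorizationMonoid.of_isLocalization`).
-/

set_option autoImplicit false
set_option linter.style.haveILetI false

open CategoryTheory CategoryTheory.Limits AlgebraicGeometry TopologicalSpace

universe u

namespace Fermat.Agent.S26.LF.H30

/-- In a Jacobson space every point specialises to a closed point. -/
theorem exists_closed_specialization {X : Type*} [TopologicalSpace X] [JacobsonSpace X] (x : X) :
    ∃ y : X, x ⤳ y ∧ IsClosed ({y} : Set X) := by
  have h := JacobsonSpace.closure_inter_closedPoints (X := X) (Z := closure {x}) isClosed_closure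
  have hne : (closure ({x} : Set X) ∩ closedPoints X).Nonempty := by
    by_contra hempty
    rw [Set.not_nonempty_iff_eq_empty] at hempty
    rw [hempty, closure_empty] at h
    have hx : x ∈ closure ({x} : Set X) := subset_closure rfl
    rw [← h] at hx
    exact hx
  obtain ⟨y, hy1, hy2⟩ := hne
  exact ⟨y, specializes_iff_mem_closure.2 hy1, hy2⟩

/-- The stalk at a generalisation `x` of `y` is a UFD if the stalk at `y` is. -/
theorem ufd_stalk_of_specializes {A : Scheme.{u}} {x y : A} (h : x ⤳ y)
    [UniqueFactorizationMonoid (A.presheaf.stalk y)] :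
    UniqueFactorizationMonoid (A.presheaf.stalk x) := by
  obtain ⟨U, hU, hyU, -⟩ := exists_isAffineOpen_mem_and_subset (x := y) (U := ⊤) trivial
  have hxU : x ∈ U := h.mem_open U.2 hyU
  haveI locy := hU.isLocalization_stalk ⟨y, hyU⟩
  haveI locx := hU.isLocalization_stalk ⟨x, hxU⟩
  letI algy : Algebra Γ(A, U) (A.presheaf.stalk y) :=
    TopCat.Presheaf.algebra_section_stalk A.presheaf ⟨y, hyU⟩
  letI algx : Algebra Γ(A, U) (A.presheaf.stalk x) :=
    TopCat.Presheaf.algebra_section_stalk A.presheaf ⟨x, hxU⟩
  letI : Algebra (A.presheaf.stalk y) (A.presheaf.stalk x) :=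
    (A.presheaf.stalkSpecializes h).hom.toAlgebra
  haveI : IsScalarTower Γ(A, U) (A.presheaf.stalk y) (A.presheaf.stalk x) := by
    refine IsScalarTower.of_algebraMap_eq' ?_
    have h1 := TopCat.Presheaf.germ_stalkSpecializes A.presheaf hyU h
    have h2 := congrArg CommRingCat.Hom.hom h1
    rw [CommRingCat.hom_comp] at h2
    exact h2.symm
  have hle : (hU.primeIdealOf ⟨y, hyU⟩).asIdeal.primeCompl ≤
      (hU.primeIdealOf ⟨x, hxU⟩).asIdeal.primeCompl := by
    intro s hs
    have h1 : IsUnit (algebraMap Γ(A, U) (A.presheaf.stalk y) s) :=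
      (IsLocalization.AtPrime.isUnit_to_map_iff (A.presheaf.stalk y)
        (hU.primeIdealOf ⟨y, hyU⟩).asIdeal s).2 hs
    have h2 : IsUnit (algebraMap Γ(A, U) (A.presheaf.stalk x) s) := by
      rw [IsScalarTower.algebraMap_apply Γ(A, U) (A.presheaf.stalk y) (A.presheaf.stalk x)]
      exact h1.map _
    exact (IsLocalization.AtPrime.isUnit_to_map_iff (A.presheaf.stalk x)
      (hU.primeIdealOf ⟨x, hxU⟩).asIdeal s).1 h2
  haveI : IsLocalization
      (((hU.primeIdealOf ⟨x, hxU⟩).asIdeal.primeCompl).map
        (algebraMap Γ(A, U) (A.presheaf.stalk y))) (A.presheaf.stalk x) :=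
    IsLocalization.isLocalization_of_submonoid_le (A.presheaf.stalk y) (A.presheaf.stalk x)
      (hU.primeIdealOf ⟨y, hyU⟩).asIdeal.primeCompl
      (hU.primeIdealOf ⟨x, hxU⟩).asIdeal.primeCompl hle
  exact UniqueFactorizationMonoid.of_isLocalization
    (((hU.primeIdealOf ⟨x, hxU⟩).asIdeal.primeCompl).map
      (algebraMap Γ(A, U) (A.presheaf.stalk y))) (A.presheaf.stalk x)

/-- **LFloc**: from the closed points to all points. -/
theorem stmt_LFloc : Stmt_LFloc.{u} := by
  intro hc K _ _ A f g _ _ _ x
  haveI : Smooth f := SmoothOfRelativeDimension.smooth g f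
  haveI : LocallyOfFiniteType f := inferInstance
  haveI : JacobsonSpace A := LocallyOfFiniteType.jacobsonSpace f
  obtain ⟨y, hxy, hy⟩ := exists_closed_specialization (X := A) x
  haveI := hc K f g y hy
  exact ufd_stalk_of_specializes hxy

end Fermat.Agent.S26.LF.H30
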