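import Fermat.Agent.S26.LF.H34_LF1Step
import Fermat.Agent.S26.LF.LF1Defs

/-!
# S26, LF1a (helper34): the Weierstrass step in helper9's interface

`stmt_LF1a : LF.Stmt_LF1a` from `H34.stmt_LF1_Step` (argument order swapped).
-/

set_option autoImplicit false

universe u

namespace Fermat.Agent.S26.LF.H34

/-- **LF1a** (helper9's interface). -/
theorem stmt_LF1a : Fermat.Agent.S26.LF.Stmt_LF1a.{u} := by
  intro A _ _ _ _ _ _ f hirr hf
  exact stmt_LF1_Step A f hf hirr

/-- **LF1** from the change of variables alone. -/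
theorem stmt_LF1_of_LF1b (hb : Fermat.Agent.S26.LF.Stmt_LF1b.{u}) :
    Fermat.Agent.S26.LF.Stmt_LF1.{u} :=
  Fermat.Agent.S26.LF.stmt_LF1_of stmt_LF1a hb

end Fermat.Agent.S26.LF.H34
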