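import Fermat.Agent.S26.LF.Defs
import Fermat.Agent.S26.LF.H47_Alg

/-!
# S26, package LF, leaf LF2 (helper47): scheme bridge

`stmt_LF2 : Stmt_LF2`: at a closed point `x` of a smooth `K`-scheme of relative dimension `g`
(`K` algebraically closed) the local ring has a flat local homomorphism to `K⟦t₁,…,t_g⟧`.
-/

set_option autoImplicit false
set_option linter.style.haveILetI false

open CategoryTheory CategoryTheory.Limits AlgebraicGeometry

universe u

namespace Fermat.Agent.S26.LF.H47

/-- a nonempty open of the spectrum of a field is everything -/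
theorem opens_spec_field_eq_top (K : Type u) [Field K] (U : (Spec (CommRingCat.of K)).Opens)
    (y : Spec (CommRingCat.of K)) (hy : y ∈ U) : U = ⊤ := by
  ext z
  have : z = y := Subsingleton.elim _ _
  simp [this, hy]

/-- Zariski's lemma: a maximal ideal of a finite type algebra over an algebraically closed field
has residue field `K`. -/
theorem residue_surjective (K : Type u) [Field K] [IsAlgClosed K] (S : Type u) [CommRing S]
    (f : K →+* S) (hf : f.FiniteType) (𝔫 : Ideal S) [𝔫.IsMaximal] :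
    Function.Surjective ((Ideal.Quotient.mk 𝔫).comp f) := by
  algebraize [f]
  letI : Field (S ⧸ 𝔫) := Ideal.Quotient.field 𝔫
  haveI : Algebra.FiniteType K (S ⧸ 𝔫) := inferInstance
  haveI : Module.Finite K (S ⧸ 𝔫) := finite_of_finite_type_of_isJacobsonRing K (S ⧸ 𝔫)
  haveI : Algebra.IsIntegral K (S ⧸ 𝔫) := inferInstance
  exact (IsAlgClosed.algebraMap_bijective_of_isIntegral (k := K) (K := S ⧸ 𝔫)).2

/-- **LF2**. -/
theorem stmt_LF2 : Stmt_LF2.{u} := by
  intro K _ _ A f g _ _ _ x hx
  obtain ⟨U, hU, V, hV, hxV, e, hf⟩ :=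
    SmoothOfRelativeDimension.exists_isStandardSmoothOfRelativeDimension (n := g) (f := f) x
  obtain rfl : U = ⊤ := opens_spec_field_eq_top K U (f x) (e hxV)
  let ι : K ≃+* Γ(Spec (CommRingCat.of K), ⊤) :=
    (Scheme.ΓSpecIso (CommRingCat.of K)).symm.commRingCatIsoToRingEquiv
  let f₁ : K →+* Γ(A, V) := (f.appLE ⊤ V e).hom.comp ι.toRingHom
  have hf₁ : f₁.IsStandardSmoothOfRelativeDimension g :=
    (RingHom.isStandardSmoothOfRelativeDimension_respectsIso (n := g)).2 _ ι hf
  set 𝔫 : Ideal Γ(A, V) := (hV.primeIdealOf ⟨x, hxV⟩).asIdeal with h𝔫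
  haveI : 𝔫.IsMaximal := hV.primeIdealOf_isMaximal_of_isClosed ⟨x, hxV⟩ hx
  letI : Algebra Γ(A, V) (A.presheaf.stalk x) :=
    TopCat.Presheaf.algebra_section_stalk A.presheaf ⟨x, hxV⟩
  haveI : IsLocalization.AtPrime (A.presheaf.stalk x) 𝔫 := hV.isLocalization_stalk ⟨x, hxV⟩
  have hft : f₁.FiniteType := by
    have h1 : f₁.IsStandardSmooth := hf₁.isStandardSmooth
    algebraize [f₁]
    exact (inferInstance : Algebra.FiniteType K Γ(A, V))
  have hres : Function.Surjective ((Ideal.Quotient.mk 𝔫).comp f₁) :=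
    residue_surjective K Γ(A, V) f₁ hft 𝔫
  exact lf2_alg K g Γ(A, V) f₁ hf₁ 𝔫 hres (A.presheaf.stalk x)

end Fermat.Agent.S26.LF.H47
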